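/-
S31 (Plan M), wiring piece [W2] (helper1): SATURATION of the lattice `H(ℤ)` in the Tate module.
If `ι φ` is divisible by `p ^ m` in `T_p J₀(N)` then `φ` is divisible by `p ^ m` in `H(ℤ)`
(the `m`-th component of `ι φ` vanishes, so `φ ≡ 0 mod p ^ m` by the defining property of `ι`, and
division by `p ^ m` in `Hom(Γ₀(N), ℤ)` preserves parabolicity).
-/
import Fermat.Agent.Lib.S30.TateIota

set_option autoImplicit false
set_option linter.unusedSectionVars false

open CongruenceSubgroup ModularCurve AlgebraicCurve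

namespace Fermat.Agent.Lib.S31

open Fermat.Agent.Lib.S29 Fermat.Agent.Lib.S30

/-- Division in the lattice `H(ℤ)`. -/
theorem s31d_exists_div (N : ℕ) [NeZero N] (d : ℤ) (φ : s29s_M N)
    (h : ∀ γ : Additive (Gamma0 N), d ∣ (φ : Additive (Gamma0 N) →+ ℤ) γ) :
    ∃ ψ : s29s_M N, φ = d • ψ := by
  let ψ' : Additive (Gamma0 N) →+ ℤ :=
    { toFun := fun γ => (φ : Additive (Gamma0 N) →+ ℤ) γ / d
      map_zero' := by simp
      map_add' := fun γ δ => by
        rw [map_add, Int.add_ediv_of_dvd_left (h γ)] }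
  have hψ'M : ψ' ∈ s29s_M N := by
    refine ⟨fun γ hγ => ?_, fun γ hγ => ?_⟩
    · show (φ : Additive (Gamma0 N) →+ ℤ) (Additive.ofMul γ) / d = 0
      rw [φ.2.1 γ hγ, Int.zero_ediv]
    · show (φ : Additive (Gamma0 N) →+ ℤ) (Additive.ofMul γ) / d = 0
      rw [φ.2.2 γ hγ, Int.zero_ediv]
  refine ⟨⟨ψ', hψ'M⟩, ?_⟩
  apply Subtype.ext
  refine AddMonoidHom.ext fun γ => ?_
  rw [Submodule.coe_smul, AddMonoidHom.smul_apply, smul_eq_mul]
  exact (Int.mul_ediv_cancel' (h γ)).symm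

/-- **Saturation of `ι`.** -/
theorem s31d_iota_div (N : ℕ) [NeZero N] (p : ℕ) [Fact p.Prime] (m : ℕ) (φ : s29s_M N)
    (h : ∃ w : s30a_TJ N p, s30i_iota N p φ = (p : ℤ_[p]) ^ m • w) :
    ∃ φ' : s29s_M N, φ = ((p : ℤ) ^ m) • φ' := by
  obtain ⟨w, hw⟩ := h
  have hp : p.Prime := Fact.out
  have : NeZero (p ^ m) := ⟨pow_ne_zero m hp.ne_zero⟩
  -- the `m`-th component vanishes
  have h0 : ((s30i_level N p m φ : s29k_Jp N (p ^ m)) : JZero N) = 0 := by
    rw [← s30i_iota_apply, hw]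
    exact s30a_pow_smul_apply_eq_zero w m
  have h1 : s30i_level N p m φ = 0 := Subtype.ext h0
  have h2 := s30i_level_spec N p m φ
  rw [h1, map_zero] at h2
  apply s31d_exists_div N _ φ
  intro γ
  have h3 := congrArg (fun χ : Additive (Gamma0 N) →+ ZMod (p ^ m) => χ γ) h2
  simp only [AddMonoidHom.zero_apply, s29s_cast_apply] at h3
  have h4 := (ZMod.intCast_zmod_eq_zero_iff_dvd _ _).mp h3.symm
  have e : ((p ^ m : ℕ) : ℤ) = (p : ℤ) ^ m := by push_cast; rfl
  rwa [e] at h4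

end Fermat.Agent.Lib.S31
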