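/-
S31 (Plan M), package [CMP] (helper1), part 1: the LUCAS SEQUENCE
  `L₀ = 2, L₁ = s, L_{j+2} = s·L_{j+1} − d·L_j`
in an arbitrary ring.  It computes
* the traces of the powers of a `2 × 2` matrix: `tr(M^j) = L_j(tr M, det M)` (`s31c_trace_pow`);
* `U^j + d^j V^j = L_j(U + dV, d)` for mutually inverse `U, V` and central `d` (`s31c_unit_pow`):
  with `U = ρ(Frob_ℓ)` on the Tate module, `d = ℓ`, `U + ℓ U⁻¹ = T_ℓ` (Eichler–Shimura) this expresses
  `ρ(Frob_ℓ^j) + ℓ^j ρ(Frob_ℓ^{-j})` as an integer polynomial in the Hecke operator `T_ℓ`.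
Mathlib only.
-/
import Mathlib

set_option autoImplicit false

namespace Fermat.Agent.Lib.S31

/-- The Lucas sequence `L₀ = 2, L₁ = s, L_{j+2} = s·L_{j+1} − d·L_j`. -/
def s31c_lucas {R : Type*} [Ring R] (s d : R) : ℕ → R
  | 0 => 2
  | 1 => s
  | (j + 2) => s * s31c_lucas s d (j + 1) - d * s31c_lucas s d j

section Basic

variable {R : Type*} [Ring R] (s d : R)

@[simp] theorem s31c_lucas_zero : s31c_lucas s d 0 = 2 := rfl

@[simp] theorem s31c_lucas_one : s31c_lucas s d 1 = s := rfl

theorem s31c_lucas_succ_succ (j : ℕ) :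
    s31c_lucas s d (j + 2) = s * s31c_lucas s d (j + 1) - d * s31c_lucas s d j := rfl

/-- Two-step induction principle, in the form used below. -/
theorem s31c_two_step {P : ℕ → Prop} (h0 : P 0) (h1 : P 1)
    (h : ∀ j, P j → P (j + 1) → P (j + 2)) (j : ℕ) : P j := by
  have : P j ∧ P (j + 1) := by
    induction j with
    | zero => exact ⟨h0, h1⟩
    | succ j ih => exact ⟨ih.2, h j ih.1 ih.2⟩
  exact this.1

/-- Ring homomorphisms commute with the Lucas sequence. -/
theorem s31c_lucas_map {S : Type*} [Ring S] (f : R →+* S) (j : ℕ) :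
    f (s31c_lucas s d j) = s31c_lucas (f s) (f d) j := by
  induction j using s31c_two_step with
  | h0 => rw [s31c_lucas_zero, s31c_lucas_zero, map_ofNat]
  | h1 => simp
  | h j ih0 ih1 =>
    rw [s31c_lucas_succ_succ, s31c_lucas_succ_succ, map_sub, map_mul, map_mul, ih0, ih1]

/-- Congruences: if `s ≡ s'`, `d ≡ d'` modulo a two-sided ideal (given as the kernel-like
predicate of an additive subgroup stable under multiplication), the Lucas values are congruent.
Stated for commutative rings and ideals. -/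
theorem s31c_lucas_congr {T : Type*} [CommRing T] (I : Ideal T) {s s' d d' : T}
    (hs : s - s' ∈ I) (hd : d - d' ∈ I) (j : ℕ) :
    s31c_lucas s d j - s31c_lucas s' d' j ∈ I := by
  induction j using s31c_two_step with
  | h0 => simp
  | h1 => simpa using hs
  | h j ih0 ih1 =>
    rw [s31c_lucas_succ_succ, s31c_lucas_succ_succ]
    have e : s * s31c_lucas s d (j + 1) - d * s31c_lucas s d j -
        (s' * s31c_lucas s' d' (j + 1) - d' * s31c_lucas s' d' j) =
        (s - s') * s31c_lucas s d (j + 1) + s' * (s31c_lucas s d (j + 1) - s31c_lucas s' d' (j + 1))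
          - ((d - d') * s31c_lucas s d j + d' * (s31c_lucas s d j - s31c_lucas s' d' j)) := by
      ring
    rw [e]
    exact I.sub_mem (I.add_mem (I.mul_mem_right _ hs) (I.mul_mem_left _ ih1))
      (I.add_mem (I.mul_mem_right _ hd) (I.mul_mem_left _ ih0))

end Basic

section Units

variable {E : Type*} [Ring E]

/-- **Powers of a unit.** If `U V = V U = 1` and `D` commutes with `U` and `V`, then
`U^j + D^j V^j = L_j(U + D V, D)`. -/
theorem s31c_unit_pow (U V D : E) (hUV : U * V = 1) (hVU : V * U = 1)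
    (hDU : Commute D U) (hDV : Commute D V) (j : ℕ) :
    U ^ j + D ^ j * V ^ j = s31c_lucas (U + D * V) D j := by
  have hUVp : ∀ n : ℕ, U * V ^ (n + 1) = V ^ n := fun n => by
    rw [pow_succ', ← mul_assoc, hUV, one_mul]
  have hVUp : ∀ n : ℕ, V * U ^ (n + 1) = U ^ n := fun n => by
    rw [pow_succ', ← mul_assoc, hVU, one_mul]
  induction j using s31c_two_step with
  | h0 => simp; norm_num
  | h1 => simp
  | h j ih0 ih1 =>
    rw [s31c_lucas_succ_succ, ← ih0, ← ih1]
    have hDUp : ∀ n : ℕ, Commute D (U ^ n) := fun n => hDU.pow_right n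
    have hDVp : ∀ n : ℕ, Commute D (V ^ n) := fun n => hDV.pow_right n
    have hDpU : ∀ n : ℕ, Commute (D ^ n) U := fun n => hDU.pow_left n
    have hDpV : ∀ n : ℕ, Commute (D ^ n) V := fun n => hDV.pow_left n
    have e1 : U * (D ^ (j + 1) * V ^ (j + 1)) = D ^ (j + 1) * V ^ j := by
      rw [← mul_assoc, ← (hDpU (j + 1)).eq, mul_assoc, hUVp]
    have e2 : D * V * U ^ (j + 1) = D * U ^ j := by
      rw [mul_assoc, hVUp]
    have e3 : D * V * (D ^ (j + 1) * V ^ (j + 1)) = D ^ (j + 2) * V ^ (j + 2) := by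
      rw [mul_assoc D V, ← mul_assoc V, ← (hDpV (j + 1)).eq, mul_assoc (D ^ (j + 1)), ← pow_succ',
        ← mul_assoc, ← pow_succ']
    have e4 : D * (D ^ j * V ^ j) = D ^ (j + 1) * V ^ j := by
      rw [← mul_assoc, ← pow_succ']
    rw [add_mul, mul_add, mul_add, e1, e2, e3, mul_add, e4, ← pow_succ']
    abel

end Units

section Trace

variable {T : Type*} [CommRing T]

/-- Cayley–Hamilton for `2 × 2` matrices. -/
theorem s31c_sq_eq (M : Matrix (Fin 2) (Fin 2) T) :
    M * M = M.trace • M - M.det • (1 : Matrix (Fin 2) (Fin 2) T) := by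
  ext i j
  fin_cases i <;> fin_cases j <;>
    simp [Matrix.mul_apply, Fin.sum_univ_two, Matrix.trace_fin_two, Matrix.det_fin_two] <;> ring

/-- **Traces of powers** of a `2 × 2` matrix. -/
theorem s31c_trace_pow (M : Matrix (Fin 2) (Fin 2) T) (j : ℕ) :
    (M ^ j).trace = s31c_lucas M.trace M.det j := by
  induction j using s31c_two_step with
  | h0 =>
    rw [pow_zero, Matrix.trace_one, s31c_lucas_zero, Fintype.card_fin]
    norm_num
  | h1 => rw [pow_one, s31c_lucas_one]
  | h j ih0 ih1 =>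
    have e : M ^ (j + 2) = M.trace • M ^ (j + 1) - M.det • M ^ j := by
      rw [pow_add, pow_two, s31c_sq_eq, mul_sub, Matrix.mul_smul, Matrix.mul_smul, mul_one,
        ← pow_succ]
    rw [e, Matrix.trace_sub, Matrix.trace_smul, Matrix.trace_smul, ih0, ih1, s31c_lucas_succ_succ,
      smul_eq_mul, smul_eq_mul]

end Trace

end Fermat.Agent.Lib.S31
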