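/-
S31 (Plan M), package [CMP] (helper1), part 3: the COMPARISON THEOREM (abstract form).

`r : G_ℚ →* M₂(T)` a continuous matrix representation over a local ring `T` (`p ∈ 𝔪_T`, `T`
separated), whose Frobenius elements at the primes `ℓ ∉ S₀` have trace `π(τ ℓ)` and determinant `ℓ`
(`π : 𝕋 →+* T`, `τ ℓ ∈ 𝕋` the Hecke operators);  `Λ` a `ℤ_[p]`-module with a continuous action `ρ`
of `G_ℚ` and operators `TΛ ℓ` with `TΛ ℓ = ρ(Frob_ℓ) + ℓ ρ(Frob_ℓ)⁻¹` (Eichler–Shimura on the Tate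
module), `ε` the `p`-adic cyclotomic character.  If integer polynomial identities between the `TΛ ℓ`
modulo `p ^ (n + c)` imply the same identities between the `π(τ ℓ)` modulo `𝔪_T ^ n` (`hcong`, from
`Lib/S31/Cong.lean` and the faithful action of `𝕋` on `H(ℤ) ⊂ Λ`), then
  `ρ τ₀ = 1, ε τ₀ = 1  ⇒  tr r(τ₀ g) = tr r(g)` for all `g`      (`s31c_trace_mul_eq`).
Proof: Frobenius density, twice (for `g` and for `τ₀ g`), and the Lucas sequences.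
-/
import Fermat.Agent.Lib.S31.Lucas
import Fermat.Agent.Lib.S29.FDPlace
import Fermat.Agent.Lib.S53.MatrixRep

set_option autoImplicit false
set_option linter.unusedSectionVars false

namespace Fermat.Agent.Lib.S31

open IsLocalRing Fermat.Agent.Lib.S29 Fermat.Agent.Lib.S53

noncomputable section

section Div

variable {p : ℕ} [Fact p.Prime] {Λ : Type*} [AddCommGroup Λ] [Module ℤ_[p] Λ]

/-- Endomorphisms divisible by `p ^ m`. -/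
def s31c_Div (m : ℕ) (X : Module.End ℤ_[p] Λ) : Prop :=
  ∀ v : Λ, ∃ w : Λ, X v = (p : ℤ_[p]) ^ m • w

theorem s31c_Div.add {m : ℕ} {X Y : Module.End ℤ_[p] Λ} (hX : s31c_Div m X) (hY : s31c_Div m Y) :
    s31c_Div m (X + Y) := by
  intro v
  obtain ⟨w, hw⟩ := hX v
  obtain ⟨w', hw'⟩ := hY v
  exact ⟨w + w', by rw [LinearMap.add_apply, hw, hw', smul_add]⟩

theorem s31c_Div.neg {m : ℕ} {X : Module.End ℤ_[p] Λ} (hX : s31c_Div m X) : s31c_Div m (-X) := by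
  intro v
  obtain ⟨w, hw⟩ := hX v
  exact ⟨-w, by rw [LinearMap.neg_apply, hw, smul_neg]⟩

theorem s31c_Div.sub {m : ℕ} {X Y : Module.End ℤ_[p] Λ} (hX : s31c_Div m X) (hY : s31c_Div m Y) :
    s31c_Div m (X - Y) := by
  rw [sub_eq_add_neg]
  exact hX.add hY.neg

theorem s31c_Div.mul_left {m : ℕ} {X : Module.End ℤ_[p] Λ} (hX : s31c_Div m X)
    (Y : Module.End ℤ_[p] Λ) : s31c_Div m (Y * X) := by
  intro v
  obtain ⟨w, hw⟩ := hX v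
  exact ⟨Y w, by rw [Module.End.mul_apply, hw, map_smul]⟩

theorem s31c_Div.mul_right {m : ℕ} {X : Module.End ℤ_[p] Λ} (hX : s31c_Div m X)
    (Y : Module.End ℤ_[p] Λ) : s31c_Div m (X * Y) := by
  intro v
  obtain ⟨w, hw⟩ := hX (Y v)
  exact ⟨w, by rw [Module.End.mul_apply, hw]⟩

theorem s31c_Div.smul {m : ℕ} {X : Module.End ℤ_[p] Λ} (hX : s31c_Div m X) (a : ℤ_[p]) :
    s31c_Div m (a • X) := by
  intro v
  obtain ⟨w, hw⟩ := hX v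
  exact ⟨a • w, by rw [LinearMap.smul_apply, hw, smul_comm]⟩

theorem s31c_Div.of_scalar {m : ℕ} {a : ℤ_[p]} (ha : ∃ w : ℤ_[p], a = (p : ℤ_[p]) ^ m * w)
    (X : Module.End ℤ_[p] Λ) : s31c_Div m (a • X) := by
  intro v
  obtain ⟨w, rfl⟩ := ha
  exact ⟨w • X v, by rw [LinearMap.smul_apply, mul_smul]⟩

end Div

section Phi

variable {p : ℕ} [Fact p.Prime] {Λ : Type*} [AddCommGroup Λ] [Module ℤ_[p] Λ]
  (ρ : s29k_G →* Module.End ℤ_[p] Λ) (ε : s29k_G →* ℤ_[p]ˣ)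

/-- `Φ(a) = ρ(a) + ε(a) ρ(a)⁻¹`. -/
def s31c_Phi (a : s29k_G) : Module.End ℤ_[p] Λ :=
  ρ a + ((ε a : ℤ_[p]ˣ) : ℤ_[p]) • ρ a⁻¹

theorem s31c_rho_mul_inv (a : s29k_G) : ρ a * ρ a⁻¹ = 1 := by
  rw [← map_mul, mul_inv_cancel, map_one]

theorem s31c_rho_inv_mul (a : s29k_G) : ρ a⁻¹ * ρ a = 1 := by
  rw [← map_mul, inv_mul_cancel, map_one]

/-- `Φ` does not see elements acting trivially. -/
theorem s31c_Phi_mul_of_trivial (τ₀ g : s29k_G) (hτρ : ρ τ₀ = 1) (hτε : ε τ₀ = 1) :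
    s31c_Phi ρ ε (τ₀ * g) = s31c_Phi ρ ε g := by
  have hinv : ρ τ₀⁻¹ = 1 := by
    have h := s31c_rho_inv_mul ρ τ₀
    rwa [hτρ, mul_one] at h
  unfold s31c_Phi
  rw [map_mul, map_mul, mul_inv_rev, map_mul, hτρ, hτε, hinv, one_mul, one_mul, mul_one]

/-- `Φ` of a power of an element satisfying the Eichler–Shimura relation is a Lucas polynomial in
the Hecke operator. -/
theorem s31c_Phi_pow (σ : s29k_G) (ℓ : ℕ) (TΛ : Module.End ℤ_[p] Λ)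
    (hT : TΛ = ρ σ + ((ℓ : ℤ_[p])) • ρ σ⁻¹) (hε : ((ε σ : ℤ_[p]ˣ) : ℤ_[p]) = (ℓ : ℤ_[p])) (j : ℕ) :
    s31c_Phi ρ ε (σ ^ j) = s31c_lucas TΛ ((ℓ : ℕ) : Module.End ℤ_[p] Λ) j := by
  have hD : ((ℓ : ℕ) : Module.End ℤ_[p] Λ) = (ℓ : ℤ_[p]) • (1 : Module.End ℤ_[p] Λ) := by
    rw [← Algebra.algebraMap_eq_smul_one, map_natCast]
  have hcomm : ∀ X : Module.End ℤ_[p] Λ, Commute ((ℓ : ℕ) : Module.End ℤ_[p] Λ) X :=
    fun X => Nat.cast_commute ℓ X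
  have hT' : TΛ = ρ σ + ((ℓ : ℕ) : Module.End ℤ_[p] Λ) * ρ σ⁻¹ := by
    rw [hT, hD, smul_mul_assoc, one_mul]
  rw [hT', ← s31c_unit_pow (ρ σ) (ρ σ⁻¹) _ (s31c_rho_mul_inv ρ σ) (s31c_rho_inv_mul ρ σ)
    (hcomm _) (hcomm _) j]
  unfold s31c_Phi
  rw [map_pow, map_pow, Units.val_pow_eq_pow_val, hε, ← inv_pow, map_pow, hD, smul_pow, one_pow,
    smul_mul_assoc, one_mul]

/-- **Approximation**: `Φ(b h) ≡ Φ(b)` modulo `p ^ m` if `h` and `h⁻¹` act trivially modulo `p ^ m`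
and `ε h ≡ 1`. -/
theorem s31c_Phi_mul_approx (m : ℕ) (b h : s29k_G)
    (h1 : ∀ v : Λ, ∃ w : Λ, ρ h v - v = (p : ℤ_[p]) ^ m • w)
    (h2 : ∀ v : Λ, ∃ w : Λ, ρ h⁻¹ v - v = (p : ℤ_[p]) ^ m • w)
    (h3 : ∃ w : ℤ_[p], ((ε h : ℤ_[p]ˣ) : ℤ_[p]) - 1 = (p : ℤ_[p]) ^ m * w) :
    s31c_Div m (s31c_Phi ρ ε (b * h) - s31c_Phi ρ ε b) := by
  have d1 : s31c_Div m (ρ h - 1) := fun v => by
    obtain ⟨w, hw⟩ := h1 v
    exact ⟨w, by rw [LinearMap.sub_apply, Module.End.one_apply, hw]⟩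
  have d2 : s31c_Div m (ρ h⁻¹ - 1) := fun v => by
    obtain ⟨w, hw⟩ := h2 v
    exact ⟨w, by rw [LinearMap.sub_apply, Module.End.one_apply, hw]⟩
  have key : s31c_Phi ρ ε (b * h) - s31c_Phi ρ ε b =
      ρ b * (ρ h - 1) + ((ε b : ℤ_[p]ˣ) : ℤ_[p]) • (((ε h : ℤ_[p]ˣ) : ℤ_[p]) •
        ((ρ h⁻¹ - 1) * ρ b⁻¹) + ((((ε h : ℤ_[p]ˣ) : ℤ_[p]) - 1) • ρ b⁻¹)) := by
    unfold s31c_Phi
    rw [map_mul, map_mul, mul_inv_rev, map_mul, Units.val_mul]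
    simp only [mul_sub, sub_mul, mul_one, one_mul, smul_add, smul_sub, sub_smul, one_smul, mul_smul]
    abel
  rw [key]
  exact (d1.mul_left _).add ((((d2.mul_right _).smul _).add (s31c_Div.of_scalar h3 _)).smul _)

end Phi

section Main

variable (p : ℕ) [Fact p.Prime]
  {T : Type} [CommRing T] [IsLocalRing T]
  {Λ : Type*} [AddCommGroup Λ] [Module ℤ_[p] Λ]
  {𝕋 : Type*} [Ring 𝕋]

/-- Entrywise congruence of matrices gives congruence of traces of products. -/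
theorem s31c_trace_mul_sub_mem (I : Ideal T) (M N : Matrix (Fin 2) (Fin 2) T)
    (hN : ∀ i j, (N - 1) i j ∈ I) : (M * N).trace - M.trace ∈ I := by
  have e : (M * N).trace - M.trace = (M * (N - 1)).trace := by
    rw [mul_sub, mul_one, Matrix.trace_sub]
  rw [e, Matrix.trace, Finset.sum_congr rfl (fun i _ => Matrix.diag_apply _ i)]
  refine Ideal.sum_mem _ fun i _ => ?_
  rw [Matrix.mul_apply]
  exact Ideal.sum_mem _ fun k _ => Ideal.mul_mem_left _ _ (hN k i)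

/-- A common finite Galois-stable level. -/
theorem s31c_exists_level (r : s29k_G →* Matrix (Fin 2) (Fin 2) T) (hr : MatContinuous r)
    (ρ : s29k_G →* Module.End ℤ_[p] Λ)
    (hρ : ∀ k : ℕ, ∃ L : IntermediateField ℚ (AlgebraicClosure ℚ), FiniteDimensional ℚ L ∧
      (∀ σ : s29k_G, ∀ x ∈ L, σ x ∈ L) ∧
      ∀ σ : s29k_G, (∀ x ∈ L, σ x = x) → ∀ v : Λ, ∃ w : Λ, ρ σ v - v = (p : ℤ_[p]) ^ k • w)
    (ε : s29k_G →* ℤ_[p]ˣ)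
    (hε : ∀ k : ℕ, ∃ L : IntermediateField ℚ (AlgebraicClosure ℚ), FiniteDimensional ℚ L ∧
      (∀ σ : s29k_G, ∀ x ∈ L, σ x ∈ L) ∧
      ∀ σ : s29k_G, (∀ x ∈ L, σ x = x) →
        ∃ w : ℤ_[p], ((ε σ : ℤ_[p]ˣ) : ℤ_[p]) - 1 = (p : ℤ_[p]) ^ k * w)
    (n m : ℕ) :
    ∃ L : IntermediateField ℚ (AlgebraicClosure ℚ), FiniteDimensional ℚ L ∧
      (∀ σ : s29k_G, ∀ x ∈ L, σ x ∈ L) ∧
      ∀ σ : s29k_G, (∀ x ∈ L, σ x = x) →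
        (∀ i j, (r σ - 1) i j ∈ maximalIdeal T ^ n) ∧
        (∀ v : Λ, ∃ w : Λ, ρ σ v - v = (p : ℤ_[p]) ^ m • w) ∧
        ∃ w : ℤ_[p], ((ε σ : ℤ_[p]ˣ) : ℤ_[p]) - 1 = (p : ℤ_[p]) ^ m * w := by
  obtain ⟨L₁, hL₁, h₁⟩ := hr n
  obtain ⟨L₂, hL₂, -, h₂⟩ := hρ m
  obtain ⟨L₃, hL₃, -, h₃⟩ := hε m
  have hcl : IsAlgClosure ℚ (AlgebraicClosure ℚ) := ⟨inferInstance, AlgebraicClosure.isAlgebraic ℚ⟩
  have hnQ : Normal ℚ (AlgebraicClosure ℚ) := IsAlgClosure.normal ℚ (AlgebraicClosure ℚ)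
  set L₀ : IntermediateField ℚ (AlgebraicClosure ℚ) := L₁ ⊔ L₂ ⊔ L₃ with hL₀
  have hfd12 : FiniteDimensional ℚ (L₁ ⊔ L₂ : IntermediateField ℚ (AlgebraicClosure ℚ)) :=
    IntermediateField.finiteDimensional_sup L₁ L₂
  have hfd : FiniteDimensional ℚ L₀ := IntermediateField.finiteDimensional_sup (L₁ ⊔ L₂) L₃
  set L : IntermediateField ℚ (AlgebraicClosure ℚ) :=
    IntermediateField.normalClosure ℚ L₀ (AlgebraicClosure ℚ) with hL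
  have hle : L₀ ≤ L := IntermediateField.le_normalClosure L₀
  have hnorm : Normal ℚ L := normalClosure.normal ℚ L₀ (AlgebraicClosure ℚ)
  have hle1 : L₁ ≤ L := le_trans (le_trans le_sup_left le_sup_left) hle
  have hle2 : L₂ ≤ L := le_trans (le_trans le_sup_right le_sup_left) hle
  have hle3 : L₃ ≤ L := le_trans le_sup_right hle
  refine ⟨L, normalClosure.is_finiteDimensional ℚ L₀ (AlgebraicClosure ℚ),
    fun σ y hy => ?_, fun σ hσ => ⟨?_, ?_, ?_⟩⟩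
  · have h1 := IntermediateField.normal_iff_forall_map_le'.mp hnorm σ
    exact h1 ((IntermediateField.mem_map _).mpr ⟨y, hy, rfl⟩)
  · exact h₁ σ (fun x hx => hσ x (hle1 hx))
  · exact h₂ σ (fun x hx => hσ x (hle2 hx))
  · exact h₃ σ (fun x hx => hσ x (hle3 hx))

/-- **The comparison theorem.** -/
theorem s31c_trace_mul_eq
    (hHaus : ∀ x : T, (∀ n : ℕ, x ∈ maximalIdeal T ^ n) → x = 0)
    (r : s29k_G →* Matrix (Fin 2) (Fin 2) T) (hr : MatContinuous r)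
    (ρ : s29k_G →* Module.End ℤ_[p] Λ)
    (hρ : ∀ k : ℕ, ∃ L : IntermediateField ℚ (AlgebraicClosure ℚ), FiniteDimensional ℚ L ∧
      (∀ σ : s29k_G, ∀ x ∈ L, σ x ∈ L) ∧
      ∀ σ : s29k_G, (∀ x ∈ L, σ x = x) → ∀ v : Λ, ∃ w : Λ, ρ σ v - v = (p : ℤ_[p]) ^ k • w)
    (ε : s29k_G →* ℤ_[p]ˣ)
    (hε : ∀ k : ℕ, ∃ L : IntermediateField ℚ (AlgebraicClosure ℚ), FiniteDimensional ℚ L ∧
      (∀ σ : s29k_G, ∀ x ∈ L, σ x ∈ L) ∧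
      ∀ σ : s29k_G, (∀ x ∈ L, σ x = x) →
        ∃ w : ℤ_[p], ((ε σ : ℤ_[p]ˣ) : ℤ_[p]) - 1 = (p : ℤ_[p]) ^ k * w)
    (π : 𝕋 →+* T) (S₀ : Finset ℕ) (τ : ℕ → 𝕋) (TΛ : ℕ → Module.End ℤ_[p] Λ)
    (hfrob : ∀ ℓ : ℕ, ℓ.Prime → ℓ ∉ S₀ →
      ∀ A : ValuationSubring (AlgebraicClosure ℚ), A.LiesOverPrime ℓ →
        ∀ σ : s29k_G, A.IsFrobeniusAt σ ℓ →
          (r σ).trace = π (τ ℓ) ∧ (r σ).det = (ℓ : T) ∧
            TΛ ℓ = ρ σ + ((ℓ : ℤ_[p])) • ρ σ⁻¹ ∧ ((ε σ : ℤ_[p]ˣ) : ℤ_[p]) = (ℓ : ℤ_[p]))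
    (hcong : ∃ c : ℕ, ∀ n ℓ₁ ℓ₂ j₁ j₂ : ℕ, ℓ₁.Prime → ℓ₁ ∉ S₀ → ℓ₂.Prime → ℓ₂ ∉ S₀ →
      s31c_Div (n + c) (s31c_lucas (TΛ ℓ₁) ((ℓ₁ : ℕ) : Module.End ℤ_[p] Λ) j₁ -
        s31c_lucas (TΛ ℓ₂) ((ℓ₂ : ℕ) : Module.End ℤ_[p] Λ) j₂) →
      π (s31c_lucas (τ ℓ₁) ((ℓ₁ : ℕ) : 𝕋) j₁ - s31c_lucas (τ ℓ₂) ((ℓ₂ : ℕ) : 𝕋) j₂) ∈
        maximalIdeal T ^ n)
    (τ₀ g : s29k_G) (hτρ : ρ τ₀ = 1) (hτε : ε τ₀ = 1) :
    (r (τ₀ * g)).trace = (r g).trace := by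
  obtain ⟨c, hc⟩ := hcong
  rw [← sub_eq_zero]
  apply hHaus
  intro n
  obtain ⟨L, hL, hstab, hlev⟩ := s31c_exists_level p r hr ρ hρ ε hε n (n + c)
  -- a general approximation statement for one element
  have hone : ∀ a : s29k_G, ∃ ℓ j : ℕ, ℓ.Prime ∧ ℓ ∉ S₀ ∧
      (r a).trace - π (s31c_lucas (τ ℓ) ((ℓ : ℕ) : 𝕋) j) ∈ maximalIdeal T ^ n ∧
      s31c_Div (n + c) (s31c_Phi ρ ε a -
        s31c_lucas (TΛ ℓ) ((ℓ : ℕ) : Module.End ℤ_[p] Λ) j) := by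
    intro a
    obtain ⟨ℓ, A, σ, j, hℓ, hℓS, hA, hFr, hj⟩ := s29d_frobDensity L hL hstab S₀ a
    obtain ⟨htr, hdet, hTΛ, hεσ⟩ := hfrob ℓ hℓ hℓS A hA σ hFr
    refine ⟨ℓ, j, hℓ, hℓS, ?_, ?_⟩
    all_goals
      obtain ⟨b, hb⟩ : ∃ b : s29k_G, b = σ ^ j := ⟨_, rfl⟩
      rw [← hb] at hj
      obtain ⟨h, ha, hfix⟩ : ∃ h : s29k_G, a = b * h ∧ ∀ x ∈ L, h x = x := by
        refine ⟨b⁻¹ * a, by rw [mul_inv_cancel_left], fun x hx => ?_⟩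
        rw [AlgEquiv.mul_apply, ← hj x hx]
        exact b.symm_apply_apply x
      have hfix' : ∀ x ∈ L, h⁻¹ x = x := by
        intro x hx
        conv_lhs => rw [← hfix x hx]
        exact h.symm_apply_apply x
      obtain ⟨g1, g2, g3⟩ := hlev h hfix
      obtain ⟨-, g2', -⟩ := hlev h⁻¹ hfix'
    · have e1 : (r b).trace = π (s31c_lucas (τ ℓ) ((ℓ : ℕ) : 𝕋) j) := by
        rw [hb, map_pow, s31c_trace_pow, htr, hdet, s31c_lucas_map, map_natCast]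
      rw [← e1, ha, map_mul]
      exact s31c_trace_mul_sub_mem _ _ _ g1
    · have e2 : s31c_Phi ρ ε b = s31c_lucas (TΛ ℓ) ((ℓ : ℕ) : Module.End ℤ_[p] Λ) j := by
        rw [hb]
        exact s31c_Phi_pow ρ ε σ ℓ (TΛ ℓ) hTΛ hεσ j
      rw [← e2, ha]
      exact s31c_Phi_mul_approx ρ ε (n + c) b h g2 g2' g3
  obtain ⟨ℓ₁, j₁, hℓ₁, hℓ₁S, ht₁, hd₁⟩ := hone g
  obtain ⟨ℓ₂, j₂, hℓ₂, hℓ₂S, ht₂, hd₂⟩ := hone (τ₀ * g)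
  rw [s31c_Phi_mul_of_trivial ρ ε τ₀ g hτρ hτε] at hd₂
  have hdiv : s31c_Div (n + c) (s31c_lucas (TΛ ℓ₁) ((ℓ₁ : ℕ) : Module.End ℤ_[p] Λ) j₁ -
      s31c_lucas (TΛ ℓ₂) ((ℓ₂ : ℕ) : Module.End ℤ_[p] Λ) j₂) := by
    have := hd₂.sub hd₁
    rwa [sub_sub_sub_cancel_left] at this
  have hπ := hc n ℓ₁ ℓ₂ j₁ j₂ hℓ₁ hℓ₁S hℓ₂ hℓ₂S hdiv
  rw [map_sub] at hπ
  have e : (r (τ₀ * g)).trace - (r g).trace =
      ((r (τ₀ * g)).trace - π (s31c_lucas (τ ℓ₂) ((ℓ₂ : ℕ) : 𝕋) j₂)) -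
        ((r g).trace - π (s31c_lucas (τ ℓ₁) ((ℓ₁ : ℕ) : 𝕋) j₁)) -
        (π (s31c_lucas (τ ℓ₁) ((ℓ₁ : ℕ) : 𝕋) j₁) - π (s31c_lucas (τ ℓ₂) ((ℓ₂ : ℕ) : 𝕋) j₂)) := by
    ring
  rw [e]
  exact Ideal.sub_mem _ (Ideal.sub_mem _ ht₂ ht₁) hπ

end Main

end

end Fermat.Agent.Lib.S31
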