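/-
S31 (Plan M), package [CMP] (helper1), part 2: the CONGRUENCE LEMMA (pure algebra).

Let `Θ : 𝕋 →+ E` be an injective additive map into a Noetherian `ℤ`-module (the Hecke algebra acting
faithfully on the lattice `H(ℤ)`, `E = M_r(ℤ)`).  Then divisibility in `E` implies divisibility in
`𝕋` up to a bounded loss: there is `c` with
  `Θ x ∈ p ^ (n + c) • E  ⇒  x ∈ p ^ n • 𝕋`      (`s31c_cong`),
hence `π x ∈ I ^ n` for every ring homomorphism `π : 𝕋 →+* T` and ideal `I ∋ p` (`s31c_cong_map`).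
Mathlib only.
-/
import Mathlib

set_option autoImplicit false
set_option linter.unusedSectionVars false

namespace Fermat.Agent.Lib.S31

section Bound

variable {E : Type*} [AddCommGroup E] [IsNoetherian ℤ E]

/-- The ascending chain `{y | p ^ k • y ∈ R}`. -/
def s31c_chain (R : Submodule ℤ E) (p : ℕ) : ℕ →o Submodule ℤ E where
  toFun k :=
    { carrier := {y | ((p : ℤ) ^ k) • y ∈ R}
      add_mem' := fun {a b} ha hb => by
        show ((p : ℤ) ^ k) • (a + b) ∈ R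
        rw [smul_add]
        exact R.add_mem ha hb
      zero_mem' := by
        show ((p : ℤ) ^ k) • (0 : E) ∈ R
        rw [smul_zero]
        exact R.zero_mem
      smul_mem' := fun m a ha => by
        show ((p : ℤ) ^ k) • (m • a) ∈ R
        rw [smul_comm]
        exact R.smul_mem m ha }
  monotone' := by
    intro k k' hkk' y hy
    obtain ⟨e, rfl⟩ := Nat.exists_eq_add_of_le hkk'
    show ((p : ℤ) ^ (k + e)) • y ∈ R
    rw [pow_add, mul_comm, mul_smul]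
    exact R.smul_mem _ hy

theorem s31c_mem_chain (R : Submodule ℤ E) (p k : ℕ) (y : E) :
    y ∈ s31c_chain R p k ↔ ((p : ℤ) ^ k) • y ∈ R := Iff.rfl

/-- Bounded `p`-power torsion in `E / R`. -/
theorem s31c_exists_bound (R : Submodule ℤ E) (p : ℕ) :
    ∃ c : ℕ, ∀ (n : ℕ) (y : E), ((p : ℤ) ^ (n + c)) • y ∈ R → ((p : ℤ) ^ c) • y ∈ R := by
  obtain ⟨c, hc⟩ := monotone_stabilizes_iff_noetherian.mpr
    (inferInstance : IsNoetherian ℤ E) (s31c_chain R p)
  refine ⟨c, fun n y hy => ?_⟩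
  have h1 : y ∈ s31c_chain R p (n + c) := hy
  rw [← hc (n + c) (Nat.le_add_left c n)] at h1
  exact h1

end Bound

section Cong

variable {𝕋 : Type*} [Ring 𝕋] {E : Type*} [AddCommGroup E] [IsNoetherian ℤ E]

/-- **The congruence lemma.** -/
theorem s31c_cong (Θ : 𝕋 →+ E) (hΘ : Function.Injective Θ) (p : ℕ) :
    ∃ c : ℕ, ∀ (n : ℕ) (x : 𝕋) (y : E), Θ x = ((p : ℤ) ^ (n + c)) • y →
      ∃ z : 𝕋, x = ((p : ℤ) ^ n) • z := by
  obtain ⟨c, hc⟩ := s31c_exists_bound (AddSubgroup.toIntSubmodule Θ.range) p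
  refine ⟨c, fun n x y hxy => ?_⟩
  have h1 : ((p : ℤ) ^ (n + c)) • y ∈ AddSubgroup.toIntSubmodule Θ.range := by
    rw [← hxy]
    exact ⟨x, rfl⟩
  obtain ⟨z, hz⟩ := hc n y h1
  refine ⟨z, hΘ ?_⟩
  rw [map_zsmul, hz, hxy, pow_add, mul_smul]

/-- The congruence lemma, pushed forward along a ring homomorphism. -/
theorem s31c_cong_map (Θ : 𝕋 →+ E) (hΘ : Function.Injective Θ) (p : ℕ) :
    ∃ c : ℕ, ∀ {T : Type*} [CommRing T] (π : 𝕋 →+* T) (I : Ideal T), (p : T) ∈ I →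
      ∀ (n : ℕ) (x : 𝕋) (y : E), Θ x = ((p : ℤ) ^ (n + c)) • y → π x ∈ I ^ n := by
  obtain ⟨c, hc⟩ := s31c_cong Θ hΘ p
  refine ⟨c, fun {T} _ π I hpI n x y hxy => ?_⟩
  obtain ⟨z, rfl⟩ := hc n x y hxy
  rw [map_zsmul, zsmul_eq_mul]
  refine Ideal.mul_mem_right _ _ ?_
  have : (((p : ℤ) ^ n : ℤ) : T) = (p : T) ^ n := by push_cast; rfl
  rw [this]
  exact Ideal.pow_mem_pow hpI n

end Cong

end Fermat.Agent.Lib.S31
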