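/-
S31 (Plan M), wiring definitions (helper1): the families of Hecke operators indexed by ALL natural
numbers (junk value `0` outside the good primes) that are fed to the abstract comparison theorem
`s31c_trace_mul_eq` of `Lib/S31/Compare.lean`.
-/
import Fermat.Agent.Lib.S30.TateGal
import Fermat.Prelude.Def_CuspForm_HeckeAlgebra

set_option autoImplicit false
set_option linter.unusedSectionVars false

open CuspForm

namespace Fermat.Agent.Lib.S31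

open Fermat.Agent.Lib.S30

noncomputable section

/-- Hecke operators in the Hecke algebra, with junk value `0` at bad `ℓ`. -/
def s31e_tau (N : ℕ) [NeZero N] (S : Finset ℕ) (ℓ : ℕ) : heckeAlgebra N 2 (↑S : Set ℕ) :=
  if h : ℓ.Prime ∧ ¬ ℓ ∣ N ∧ ℓ ∉ (↑S : Set ℕ) then heckeAlgebra.T h.1 h.2.1 h.2.2 else 0

theorem s31e_tau_of (N : ℕ) [NeZero N] (S : Finset ℕ) {ℓ : ℕ} (hℓ : ℓ.Prime) (hℓN : ¬ ℓ ∣ N)
    (hℓS : ℓ ∉ (↑S : Set ℕ)) : s31e_tau N S ℓ = heckeAlgebra.T hℓ hℓN hℓS := by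
  unfold s31e_tau
  rw [dif_pos ⟨hℓ, hℓN, hℓS⟩]

/-- Hecke operators on the Tate module, with junk value `0` at non-primes. -/
def s31e_TL (N : ℕ) [NeZero N] (p : ℕ) [Fact p.Prime] (ℓ : ℕ) : Module.End ℤ_[p] (s30a_TJ N p) :=
  if h : ℓ.Prime then s30a_T N p ⟨ℓ, h⟩ else 0

theorem s31e_TL_of (N : ℕ) [NeZero N] (p : ℕ) [Fact p.Prime] {ℓ : ℕ} (hℓ : ℓ.Prime) :
    s31e_TL N p ℓ = s30a_T N p ⟨ℓ, hℓ⟩ := by
  unfold s31e_TL
  rw [dif_pos hℓ]

end

end Fermat.Agent.Lib.S31
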