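/-
S31 (Plan M), wiring (helper1): the `hcong` input of the comparison theorem `s31c_trace_mul_eq`.

If an integer "Lucas" combination of the Hecke operators `T_ℓ` acts on the Tate module `T_p J₀(N)`
divisibly by `p ^ (n + c)`, then (through the Hecke-equivariant embedding `ι : H(ℤ) → T_p J₀(N)`, the
saturation `s31d_iota_div`-type input `hW2` and the faithful integral representation `Θ` of the
Hecke algebra on `H(ℤ)`, input `hW3`) the same combination of the `T_ℓ` in the Hecke algebra is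
divisible by `p ^ n`, hence maps into `𝔪_T ^ n` under any `π : 𝕋 →+* T` with `p ∈ 𝔪_T`.
-/
import Fermat.Agent.Lib.S31.Compare
import Fermat.Agent.Lib.S31.Cong
import Fermat.Agent.Lib.S31.WireDefs
import Fermat.Agent.Lib.S30.TateIota

set_option autoImplicit false
set_option linter.unusedSectionVars false

open IsLocalRing CuspForm CongruenceSubgroup

namespace Fermat.Agent.Lib.S31

open Fermat.Agent.Lib.S29 Fermat.Agent.Lib.S30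

noncomputable section

section Intertwine

variable {R : Type*} [CommRing R] {M Λ : Type*} [AddCommGroup M] [AddCommGroup Λ] [Module R Λ]

/-- Lucas polynomials of intertwined operators are intertwined. -/
theorem s31e_intertwine (ι : M →+ Λ) (y : Module.End ℤ M) (X : Module.End R Λ)
    (h : ∀ φ : M, ι (y φ) = X (ι φ)) (d j : ℕ) (φ : M) :
    ι (s31c_lucas y ((d : ℕ) : Module.End ℤ M) j φ) =
      s31c_lucas X ((d : ℕ) : Module.End R Λ) j (ι φ) := by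
  induction j using s31c_two_step generalizing φ with
  | h0 =>
    have e1 : (2 : Module.End ℤ M) = ((2 : ℕ) : Module.End ℤ M) := by norm_num
    have e2 : (2 : Module.End R Λ) = ((2 : ℕ) : Module.End R Λ) := by norm_num
    rw [s31c_lucas_zero, s31c_lucas_zero, e1, e2, Module.End.natCast_apply,
      Module.End.natCast_apply, map_nsmul]
  | h1 => rw [s31c_lucas_one, s31c_lucas_one, h]
  | h j ih0 ih1 =>
    rw [s31c_lucas_succ_succ, s31c_lucas_succ_succ, LinearMap.sub_apply, LinearMap.sub_apply,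
      Module.End.mul_apply, Module.End.mul_apply, Module.End.mul_apply, Module.End.mul_apply,
      Module.End.natCast_apply, Module.End.natCast_apply, map_sub, h, ih1, map_nsmul, ih0]

end Intertwine

section Main

variable (N : ℕ) [NeZero N] (p : ℕ) [Fact p.Prime]

/-- The Lucas polynomial of the Hecke operator on the lattice, as a matrix. -/
theorem s31e_toLin_lucas {r : ℕ} (b : Module.Basis (Fin r) ℤ (s29s_M N)) (ℓ : ℕ) [Fact ℓ.Prime]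
    (j : ℕ) :
    Matrix.toLin b b (s31c_lucas (s29s_heckeMat b ℓ) ((ℓ : ℕ) : Matrix (Fin r) (Fin r) ℤ) j) =
      s31c_lucas (s29h_heckeHpar N ℓ ℤ ℤ) ((ℓ : ℕ) : Module.End ℤ (s29s_M N)) j := by
  let f : Matrix (Fin r) (Fin r) ℤ →+* Module.End ℤ (s29s_M N) :=
    (Matrix.toLinAlgEquiv b : Matrix (Fin r) (Fin r) ℤ ≃ₐ[ℤ] Module.End ℤ (s29s_M N))
  have hf : ∀ m : Matrix (Fin r) (Fin r) ℤ, f m = Matrix.toLin b b m := fun m => rfl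
  have h1 := s31c_lucas_map (s29s_heckeMat b ℓ) ((ℓ : ℕ) : Matrix (Fin r) (Fin r) ℤ) f j
  have h2 : f (s29s_heckeMat b ℓ) = s29h_heckeHpar N ℓ ℤ ℤ := by
    rw [hf, s29s_heckeMat, Matrix.toLin_toMatrix]
  rw [h2, map_natCast, hf] at h1
  exact h1

/-- **The `hcong` input**, from the saturation property `hW2` of `ι` and the faithful integral
representation `hW3` of the Hecke algebra. -/
theorem s31e_hcong_of (S : Finset ℕ)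
    (hNS : ∀ q : ℕ, q.Prime → q ∣ N → q ∈ S)
    (hW2 : ∀ (m : ℕ) (φ : s29s_M N),
      (∃ w : s30a_TJ N p, s30i_iota N p φ = (p : ℤ_[p]) ^ m • w) →
        ∃ φ' : s29s_M N, φ = ((p : ℤ) ^ m) • φ')
    {r : ℕ} (b : Module.Basis (Fin r) ℤ (s29s_M N))
    (hW3 : ∃ Θ : heckeAlgebra N 2 (↑S : Set ℕ) →+* Matrix (Fin r) (Fin r) ℤ,
      Function.Injective Θ ∧
        ∀ (ℓ : ℕ) (hℓ : ℓ.Prime) (hℓN : ¬ ℓ ∣ N) (hℓS : ℓ ∉ (↑S : Set ℕ)),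
          Θ (heckeAlgebra.T hℓ hℓN hℓS) = (haveI : Fact ℓ.Prime := ⟨hℓ⟩; s29s_heckeMat b ℓ))
    {T : Type} [CommRing T] [IsLocalRing T] (hpT : (p : T) ∈ maximalIdeal T)
    (π : heckeAlgebra N 2 (↑S : Set ℕ) →+* T) :
    ∃ c : ℕ, ∀ n ℓ₁ ℓ₂ j₁ j₂ : ℕ, ℓ₁.Prime → ℓ₁ ∉ S → ℓ₂.Prime → ℓ₂ ∉ S →
      s31c_Div (n + c) (s31c_lucas (s31e_TL N p ℓ₁) ((ℓ₁ : ℕ) : Module.End ℤ_[p] (s30a_TJ N p)) j₁ -
        s31c_lucas (s31e_TL N p ℓ₂) ((ℓ₂ : ℕ) : Module.End ℤ_[p] (s30a_TJ N p)) j₂) →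
      π (s31c_lucas (s31e_tau N S ℓ₁) ((ℓ₁ : ℕ) : heckeAlgebra N 2 (↑S : Set ℕ)) j₁ -
        s31c_lucas (s31e_tau N S ℓ₂) ((ℓ₂ : ℕ) : heckeAlgebra N 2 (↑S : Set ℕ)) j₂) ∈
        maximalIdeal T ^ n := by
  obtain ⟨Θ, hΘinj, hΘT⟩ := hW3
  obtain ⟨c, hc⟩ := s31c_cong_map (Θ : heckeAlgebra N 2 (↑S : Set ℕ) →+ Matrix (Fin r) (Fin r) ℤ)
    hΘinj p
  refine ⟨c, fun n ℓ₁ ℓ₂ j₁ j₂ hℓ₁ hℓ₁S hℓ₂ hℓ₂S hdiv => ?_⟩
  -- the good primes do not divide `N`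
  have hN₁ : ¬ ℓ₁ ∣ N := fun h => hℓ₁S (hNS ℓ₁ hℓ₁ h)
  have hN₂ : ¬ ℓ₂ ∣ N := fun h => hℓ₂S (hNS ℓ₂ hℓ₂ h)
  have hS₁ : ℓ₁ ∉ (↑S : Set ℕ) := fun h => hℓ₁S (Finset.mem_coe.mp h)
  have hS₂ : ℓ₂ ∉ (↑S : Set ℕ) := fun h => hℓ₂S (Finset.mem_coe.mp h)
  have : Fact ℓ₁.Prime := ⟨hℓ₁⟩
  have : Fact ℓ₂.Prime := ⟨hℓ₂⟩
  -- the images under `Θ`
  have hΘ₁ : Θ (s31c_lucas (s31e_tau N S ℓ₁) ((ℓ₁ : ℕ) : heckeAlgebra N 2 (↑S : Set ℕ)) j₁) =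
      s31c_lucas (s29s_heckeMat b ℓ₁) ((ℓ₁ : ℕ) : Matrix (Fin r) (Fin r) ℤ) j₁ := by
    rw [s31c_lucas_map, map_natCast, s31e_tau_of N S hℓ₁ hN₁ hS₁, hΘT ℓ₁ hℓ₁ hN₁ hS₁]
  have hΘ₂ : Θ (s31c_lucas (s31e_tau N S ℓ₂) ((ℓ₂ : ℕ) : heckeAlgebra N 2 (↑S : Set ℕ)) j₂) =
      s31c_lucas (s29s_heckeMat b ℓ₂) ((ℓ₂ : ℕ) : Matrix (Fin r) (Fin r) ℤ) j₂ := by
    rw [s31c_lucas_map, map_natCast, s31e_tau_of N S hℓ₂ hN₂ hS₂, hΘT ℓ₂ hℓ₂ hN₂ hS₂]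
  -- the operators on the lattice
  set y₁ : Module.End ℤ (s29s_M N) :=
    s31c_lucas (s29h_heckeHpar N ℓ₁ ℤ ℤ) ((ℓ₁ : ℕ) : Module.End ℤ (s29s_M N)) j₁ with hy₁
  set y₂ : Module.End ℤ (s29s_M N) :=
    s31c_lucas (s29h_heckeHpar N ℓ₂ ℤ ℤ) ((ℓ₂ : ℕ) : Module.End ℤ (s29s_M N)) j₂ with hy₂
  -- intertwining
  have hint₁ : ∀ φ : s29s_M N, s30i_iota N p (y₁ φ) =
      s31c_lucas (s31e_TL N p ℓ₁) ((ℓ₁ : ℕ) : Module.End ℤ_[p] (s30a_TJ N p)) j₁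
        (s30i_iota N p φ) := by
    intro φ
    refine s31e_intertwine (s30i_iota N p).toAddMonoidHom (s29h_heckeHpar N ℓ₁ ℤ ℤ)
      (s31e_TL N p ℓ₁) (fun ψ => ?_) ℓ₁ j₁ φ
    rw [s31e_TL_of N p hℓ₁]
    exact s30i_iota_hecke N p ℓ₁ hN₁ ψ
  have hint₂ : ∀ φ : s29s_M N, s30i_iota N p (y₂ φ) =
      s31c_lucas (s31e_TL N p ℓ₂) ((ℓ₂ : ℕ) : Module.End ℤ_[p] (s30a_TJ N p)) j₂
        (s30i_iota N p φ) := by
    intro φ
    refine s31e_intertwine (s30i_iota N p).toAddMonoidHom (s29h_heckeHpar N ℓ₂ ℤ ℤ)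
      (s31e_TL N p ℓ₂) (fun ψ => ?_) ℓ₂ j₂ φ
    rw [s31e_TL_of N p hℓ₂]
    exact s30i_iota_hecke N p ℓ₂ hN₂ ψ
  -- divisibility on the lattice
  have hlat : ∀ φ : s29s_M N, ∃ φ' : s29s_M N, (y₁ - y₂) φ = ((p : ℤ) ^ (n + c)) • φ' := by
    intro φ
    apply hW2
    obtain ⟨w, hw⟩ := hdiv (s30i_iota N p φ)
    refine ⟨w, ?_⟩
    rw [LinearMap.sub_apply, map_sub, hint₁, hint₂, ← hw, LinearMap.sub_apply]
  choose φ' hφ' using hlat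
  -- the matrix identity
  have hmat : Θ (s31c_lucas (s31e_tau N S ℓ₁) ((ℓ₁ : ℕ) : heckeAlgebra N 2 (↑S : Set ℕ)) j₁ -
      s31c_lucas (s31e_tau N S ℓ₂) ((ℓ₂ : ℕ) : heckeAlgebra N 2 (↑S : Set ℕ)) j₂) =
      ((p : ℤ) ^ (n + c)) • (Matrix.of fun i k => b.repr (φ' (b k)) i) := by
    rw [map_sub, hΘ₁, hΘ₂]
    have e : s31c_lucas (s29s_heckeMat b ℓ₁) ((ℓ₁ : ℕ) : Matrix (Fin r) (Fin r) ℤ) j₁ -
        s31c_lucas (s29s_heckeMat b ℓ₂) ((ℓ₂ : ℕ) : Matrix (Fin r) (Fin r) ℤ) j₂ =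
        LinearMap.toMatrix b b (y₁ - y₂) := by
      rw [map_sub, hy₁, hy₂, ← s31e_toLin_lucas N b ℓ₁ j₁, ← s31e_toLin_lucas N b ℓ₂ j₂,
        LinearMap.toMatrix_toLin, LinearMap.toMatrix_toLin]
    rw [e]
    ext i k
    rw [LinearMap.toMatrix_apply, hφ' (b k), map_smul, Finsupp.smul_apply, Matrix.smul_apply,
      Matrix.of_apply]
  exact hc π (maximalIdeal T) hpT n _ _ hmat

end Main

end

end Fermat.Agent.Lib.S31
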