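/-
S31 (Plan M), wiring piece [W5] (helper6): the Frobenius inputs `hfrob` of the comparison theorem
`s31c_trace_mul_eq` (`Lib/S31/Compare.lean`) in concrete form.

* `s31f_trace_eq`   : `ρ.trace σ = (matOf ρ b σ).trace`;
* `s31f_trace_det`  : trace and determinant of `matOf ρ b σ` from the characteristic polynomial
                      `X ^ 2 - C a * X + C d` of `ρ.ρ σ`;
* `s31f_TL_eq`      : Eichler–Shimura on the Tate module in the form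
                      `T_ℓ = ρ_Λ(σ) + ℓ • ρ_Λ(σ⁻¹)` for a Frobenius element `σ` at `ℓ ∤ N p`;
* `s31f_hfrob`      : the hypothesis `hfrob` of `s31c_trace_mul_eq` for a `HeckeGaloisRepDatum`,
                      the Tate module of `J₀(N)` and any `s30_CycDatum`.
-/
import Mathlib
import Fermat.Prelude.Def_CuspForm_HeckeGaloisRepDatum
import Fermat.Agent.Lib.S53.MatrixRep
import Fermat.Agent.Lib.S30.LIface
import Fermat.Agent.Lib.S30.TateGal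
import Fermat.Agent.Lib.S30.TateComm
import Fermat.Agent.Lib.S31.WireDefs

set_option autoImplicit false
set_option linter.unusedSectionVars false

open Polynomial IsLocalRing CuspForm

namespace Fermat.Agent.Lib.S31

open Fermat.Agent.Lib.S29 Fermat.Agent.Lib.S30 Fermat.Agent.Lib.S53

section Mat

variable {T : Type} [CommRing T] [IsLocalRing T]

/-- the trace of a `GaloisRepAdic` is the trace of its matrix form. -/
theorem s31f_trace_eq (ρ : GaloisRepAdic T) (b : Module.Basis (Fin 2) T ρ.V) (σ : s29k_G) :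
    ρ.trace σ = (matOf ρ b σ).trace := by
  unfold GaloisRepAdic.trace
  rw [matOf_apply, LinearMap.trace_eq_matrix_trace T b]

/-- trace and determinant of the matrix form from the characteristic polynomial. -/
theorem s31f_trace_det (ρ : GaloisRepAdic T) (b : Module.Basis (Fin 2) T ρ.V) (σ : s29k_G)
    (a d : T) (h : LinearMap.charpoly (ρ.ρ σ) = X ^ 2 - C a * X + C d) :
    (matOf ρ b σ).trace = a ∧ (matOf ρ b σ).det = d := by
  rw [← LinearMap.charpoly_toMatrix (ρ.ρ σ) b, ← matOf_apply, Matrix.charpoly_fin_two] at h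
  have h1 := congrArg (fun P : T[X] => P.coeff 1) h
  have h0 := congrArg (fun P : T[X] => P.coeff 0) h
  simp only [coeff_add, coeff_sub, coeff_X_pow, coeff_C_mul, coeff_X_one, coeff_C_succ,
    coeff_X_zero, coeff_C_zero, mul_one, mul_zero] at h1 h0
  norm_num at h1 h0
  exact ⟨h1, h0⟩

end Mat

section Tate

variable (N : ℕ) [NeZero N] (p : ℕ) [Fact p.Prime]

/-- **Eichler–Shimura on the Tate module**, solved for the Hecke operator. -/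
theorem s31f_TL_eq (ℓ : ℕ) (hℓ : ℓ.Prime) (hℓNp : ¬ ℓ ∣ N * p)
    (A : ValuationSubring (AlgebraicClosure ℚ)) (hA : A.LiesOverPrime ℓ)
    (σ : s29k_G) (hσ : A.IsFrobeniusAt σ ℓ) :
    s31e_TL N p ℓ = s30a_rho N p σ + ((ℓ : ℤ_[p])) • s30a_rho N p σ⁻¹ := by
  rw [s31e_TL_of N p hℓ]
  exact s30a_eq_of_frobQuad (s30a_rho N p) (s30a_T N p ⟨ℓ, hℓ⟩) σ ((ℓ : ℤ_[p]))
    (s30a_frobQuad N p ⟨ℓ, hℓ⟩ hℓNp A hA σ hσ)

/-- a prime outside a set containing `p` and the prime divisors of `N` does not divide `N p`. -/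
theorem s31f_not_dvd {S : Finset ℕ} (hpS : p ∈ S) (hNS : ∀ q : ℕ, q.Prime → q ∣ N → q ∈ S)
    {ℓ : ℕ} (hℓ : ℓ.Prime) (hℓS : ℓ ∉ S) : ¬ ℓ ∣ N ∧ ℓ ≠ p ∧ ¬ ℓ ∣ N * p := by
  have h1 : ¬ ℓ ∣ N := fun h => hℓS (hNS ℓ hℓ h)
  have h2 : ℓ ≠ p := fun h => hℓS (h ▸ hpS)
  refine ⟨h1, h2, fun h => ?_⟩
  rcases (Nat.Prime.dvd_mul hℓ).mp h with h3 | h3
  · exact h1 h3
  · exact h2 ((Nat.prime_dvd_prime_iff_eq hℓ (Fact.out : p.Prime)).mp h3)

end Tate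

section Hecke

variable {N : ℕ} [NeZero N] {p : ℕ} [Fact p.Prime] {S : Finset ℕ}
  {𝒪 : Type} [CommRing 𝒪] [IsDomain 𝒪] [IsDiscreteValuationRing 𝒪]
  [IsAdicComplete (IsLocalRing.maximalIdeal 𝒪) 𝒪]
  {θ : CuspForm.heckeAlgebra N 2 (↑S : Set ℕ) →+* IsLocalRing.ResidueField 𝒪}
  {T : Type} [CommRing T] [IsLocalRing T] [IsNoetherianRing T]
  [IsAdicComplete (IsLocalRing.maximalIdeal T) T] [Algebra 𝒪 T] [IsLocalHom (algebraMap 𝒪 T)]
  [Module.Finite 𝒪 T] [Module.Free 𝒪 T]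

/-- **The hypothesis `hfrob` of `s31c_trace_mul_eq`** for `r := matOf H.ρ b`, `ρ := s30a_rho N p`,
`ε := Cy.ε`, `π := H.π`, `S₀ := S`, `τ := s31e_tau N S`, `TΛ := s31e_TL N p`. -/
theorem s31f_hfrob (hpS : p ∈ S) (hNS : ∀ q : ℕ, q.Prime → q ∣ N → q ∈ S)
    (H : CuspForm.HeckeGaloisRepDatum N (↑S : Set ℕ) 𝒪 θ T)
    (b : Module.Basis (Fin 2) T H.ρ.V) (Cy : s30_CycDatum p) :
    ∀ ℓ : ℕ, ℓ.Prime → ℓ ∉ S →
      ∀ A : ValuationSubring (AlgebraicClosure ℚ), A.LiesOverPrime ℓ →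
        ∀ σ : s29k_G, A.IsFrobeniusAt σ ℓ →
          (matOf H.ρ b σ).trace = H.π (s31e_tau N S ℓ) ∧ (matOf H.ρ b σ).det = (ℓ : T) ∧
            s31e_TL N p ℓ = s30a_rho N p σ + ((ℓ : ℤ_[p])) • s30a_rho N p σ⁻¹ ∧
            ((Cy.ε σ : ℤ_[p]ˣ) : ℤ_[p]) = (ℓ : ℤ_[p]) := by
  intro ℓ hℓ hℓS A hA σ hσ
  obtain ⟨hℓN, hℓp, hℓNp⟩ := s31f_not_dvd N p hpS hNS hℓ hℓS
  have hℓS' : ℓ ∉ (↑S : Set ℕ) := fun h => hℓS (Finset.mem_coe.mp h)
  obtain ⟨h1, h2⟩ := s31f_trace_det H.ρ b σ _ _ (H.charpoly_frob ℓ hℓ hℓN hℓS' A hA σ hσ)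
  refine ⟨?_, h2, s31f_TL_eq N p ℓ hℓ hℓNp A hA σ hσ, Cy.frob ℓ hℓ hℓp A hA σ hσ⟩
  rw [h1, s31e_tau_of N S hℓ hℓN hℓS']

/-- inertia at `q ∉ S` acts trivially on the Tate module and on the cyclotomic character. -/
theorem s31f_inertia_trivial (hpS : p ∈ S) (hNS : ∀ q : ℕ, q.Prime → q ∣ N → q ∈ S)
    (Cy : s30_CycDatum p) (q : ℕ) (hq : q.Prime) (hqS : q ∉ S)
    (P : ValuationSubring (AlgebraicClosure ℚ)) (hP : P.LiesOverPrime q)
    (τ₀ : s29k_G) (hτ₀ : τ₀ ∈ P.inertiaSubgroupIn ℚ) :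
    s30a_rho N p τ₀ = 1 ∧ Cy.ε τ₀ = 1 := by
  obtain ⟨-, hqp, hqNp⟩ := s31f_not_dvd N p hpS hNS hq hqS
  exact ⟨s30a_unram N p q hq hqNp P hP τ₀ hτ₀, Cy.unram q hq hqp P hP τ₀ hτ₀⟩

end Hecke

end Fermat.Agent.Lib.S31
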