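/-
S31 (Plan M), wiring piece [W3] (helper1): the faithful integral representation `Θ` of the Hecke
algebra on the lattice `H(ℤ)` (helper3's `s30e_exists_Theta`) sends `T_ℓ` to the integer matrix
`s29s_heckeMat b ℓ` of `T_ℓ^H`.
-/
import Fermat.Agent.Lib.S30.EigLattice

set_option autoImplicit false
set_option linter.unusedSectionVars false

open CuspForm CongruenceSubgroup

namespace Fermat.Agent.Lib.S31

open Fermat.Agent.Lib.S29 Fermat.Agent.Lib.S30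

theorem s31t_Theta (N : ℕ) [NeZero N] (S : Set ℕ) {r : ℕ}
    (b : Module.Basis (Fin r) ℤ (s29s_M N)) :
    ∃ Θ : heckeAlgebra N 2 S →+* Matrix (Fin r) (Fin r) ℤ, Function.Injective Θ ∧
      ∀ (ℓ : ℕ) (hℓ : ℓ.Prime) (hℓN : ¬ ℓ ∣ N) (hℓS : ℓ ∉ S),
        Θ (heckeAlgebra.T hℓ hℓN hℓS) = (haveI : Fact ℓ.Prime := ⟨hℓ⟩; s29s_heckeMat b ℓ) := by
  obtain ⟨Θ, hinj, hΘ⟩ := s30e_exists_Theta b S
  refine ⟨Θ, hinj, fun ℓ hℓ hℓN hℓS => ?_⟩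
  have : Fact ℓ.Prime := ⟨hℓ⟩
  apply Matrix.map_injective (Int.cast_injective (α := ℂ))
  show (Θ (heckeAlgebra.T hℓ hℓN hℓS)).map (Int.cast : ℤ → ℂ) =
    (s29s_heckeMat b ℓ).map (Int.cast : ℤ → ℂ)
  rw [hΘ]
  exact s30e_rhoC_heckeT b hℓ hℓN

end Fermat.Agent.Lib.S31
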