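/-
S31 (Plan M), final assembly (helper1): in a Hecke–Galois datum of level `N` away from `S`
(`S ∋ p` and the primes dividing `N`), the Galois representation is unramified at every prime
`q ∉ S`.

  `s31e_S31_of` : S31 from the two remaining inputs `hW2` (saturation of `ι : H(ℤ) → T_p J₀(N)`) and
  `hW3` (faithful integral representation of the Hecke algebra on `H(ℤ)`).

Proof: for `τ₀` in an inertia group at `q`, `τ₀` acts trivially on the Tate module `T_p J₀(N)` and on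
the `p`-adic cyclotomic character; by the comparison theorem `s31c_trace_mul_eq` (Frobenius density +
Eichler–Shimura + Lucas sequences + the congruence lemma) `tr ρ(τ₀ g) = tr ρ(g)` for all `g`, and by
helper6's `s31a_rho_eq_one` (Burnside + Nakayama + trace form) `ρ(τ₀) = 1`.
-/
import Fermat.Agent.Lib.S31.CongWire
import Fermat.Agent.Lib.S31.IotaDiv
import Fermat.Agent.Lib.S31.ThetaT
import Fermat.Agent.Lib.S31.FrobWire
import Fermat.Agent.Lib.S31.TraceOne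
import Fermat.Agent.Lib.S30.TateHecke
import Fermat.Agent.Lib.S30.CycB

set_option autoImplicit false
set_option linter.unusedSectionVars false

open IsLocalRing CuspForm CongruenceSubgroup

namespace Fermat.Agent.Lib.S31

open Fermat.Agent.Lib.S29 Fermat.Agent.Lib.S30 Fermat.Agent.Lib.S53

noncomputable section

/-- `p` lies in the maximal ideal of `T`. -/
theorem s31e_p_mem {𝒪 T : Type} [CommRing 𝒪] [IsLocalRing 𝒪] [CommRing T] [IsLocalRing T]
    [Algebra 𝒪 T] [IsLocalHom (algebraMap 𝒪 T)] (p : ℕ)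
    (h : (p : 𝒪) ∈ maximalIdeal 𝒪) : (p : T) ∈ maximalIdeal T := by
  rw [mem_maximalIdeal, mem_nonunits_iff] at h ⊢
  intro hu
  apply h
  have : IsUnit (algebraMap 𝒪 T (p : 𝒪)) := by rwa [map_natCast]
  exact isUnit_of_map_unit (algebraMap 𝒪 T) _ this

/-- A Noetherian local ring is separated. -/
theorem s31e_hausdorff {T : Type} [CommRing T] [IsLocalRing T] [IsNoetherianRing T] (x : T)
    (h : ∀ n : ℕ, x ∈ maximalIdeal T ^ n) : x = 0 := by
  have h1 : x ∈ ⨅ n : ℕ, maximalIdeal T ^ n := by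
    rw [Ideal.mem_iInf]
    exact h
  rw [Ideal.iInf_pow_eq_bot_of_isLocalRing _ (maximalIdeal.isMaximal T).ne_top] at h1
  simpa using h1

variable {p : ℕ} {N : ℕ} [NeZero N] {S : Finset ℕ}
  {𝒪 : Type} [CommRing 𝒪] [IsDomain 𝒪] [IsDiscreteValuationRing 𝒪]
  [IsAdicComplete (IsLocalRing.maximalIdeal 𝒪) 𝒪]
  {θ : CuspForm.heckeAlgebra N 2 (↑S : Set ℕ) →+* IsLocalRing.ResidueField 𝒪}
  {T : Type} [CommRing T] [IsLocalRing T] [IsNoetherianRing T]
  [IsAdicComplete (IsLocalRing.maximalIdeal T) T] [Algebra 𝒪 T] [IsLocalHom (algebraMap 𝒪 T)]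
  [Module.Finite 𝒪 T] [Module.Free 𝒪 T]

/-- **S31**, from the saturation input `hW2` and the integral representation `hW3`. -/
theorem s31e_S31_of [Fact p.Prime]
    (hW2 : ∀ (m : ℕ) (φ : s29s_M N),
      (∃ w : s30a_TJ N p, s30i_iota N p φ = (p : ℤ_[p]) ^ m • w) →
        ∃ φ' : s29s_M N, φ = ((p : ℤ) ^ m) • φ')
    {r : ℕ} (b₀ : Module.Basis (Fin r) ℤ (s29s_M N))
    (hW3 : ∃ Θ : heckeAlgebra N 2 (↑S : Set ℕ) →+* Matrix (Fin r) (Fin r) ℤ,
      Function.Injective Θ ∧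
        ∀ (ℓ : ℕ) (hℓ : ℓ.Prime) (hℓN : ¬ ℓ ∣ N) (hℓS : ℓ ∉ (↑S : Set ℕ)),
          Θ (heckeAlgebra.T hℓ hℓN hℓS) = (haveI : Fact ℓ.Prime := ⟨hℓ⟩; s29s_heckeMat b₀ ℓ))
    (hp𝒪 : (p : 𝒪) ∈ IsLocalRing.maximalIdeal 𝒪) (hpS : p ∈ S)
    (hNS : ∀ q : ℕ, q.Prime → q ∣ N → q ∈ S)
    (H : CuspForm.HeckeGaloisRepDatum N (↑S : Set ℕ) 𝒪 θ T)
    (q : ℕ) (hq : q.Prime) (hqS : q ∉ S) :
    H.ρ.IsUnramifiedAt q := by
  intro P hP τ₀ hτ₀
  have hpT : (p : T) ∈ maximalIdeal T := s31e_p_mem p hp𝒪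
  obtain ⟨h1, h2⟩ := s31f_inertia_trivial hpS hNS (s30y_cycDatum p) q hq hqS P hP τ₀ hτ₀
  set b : Module.Basis (Fin 2) T H.ρ.V := Module.finBasisOfFinrankEq T H.ρ.V H.ρ.finrank_eq with hb
  refine s31a_rho_eq_one H.ρ H.residual_absIrr τ₀ (fun g => ?_)
  rw [s31f_trace_eq H.ρ b, s31f_trace_eq H.ρ b]
  exact s31c_trace_mul_eq p s31e_hausdorff (matOf H.ρ b) (matContinuous_matOf H.ρ b)
    (s30a_rho N p) (s30a_cont N p) (s30y_cycDatum p).ε (s30y_cycDatum p).cont H.π S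
    (s31e_tau N S) (s31e_TL N p) (s31f_hfrob hpS hNS H b (s30y_cycDatum p))
    (s31e_hcong_of N p S hNS hW2 b₀ hW3 hpT H.π) τ₀ g h1 h2

/-- **S31**: in a Hecke–Galois datum of level `N` away from `S`, the Galois representation is
unramified at every prime outside `S`. -/
theorem s31e_S31 (hp : p.Prime)
    (hp𝒪 : (p : 𝒪) ∈ IsLocalRing.maximalIdeal 𝒪) (hpS : p ∈ S)
    (hNS : ∀ q : ℕ, q.Prime → q ∣ N → q ∈ S)
    (H : CuspForm.HeckeGaloisRepDatum N (↑S : Set ℕ) 𝒪 θ T)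
    (q : ℕ) (hq : q.Prime) (hqS : q ∉ S) :
    H.ρ.IsUnramifiedAt q := by
  have : Fact p.Prime := ⟨hp⟩
  exact s31e_S31_of (s31d_iota_div N p) (Module.finBasis ℤ (s29s_M N))
    (s31t_Theta N (↑S : Set ℕ) _) hp𝒪 hpS hNS H q hq hqS

end

end Fermat.Agent.Lib.S31
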