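/-
S31 (Plan M), package [HCONG] (helper3): the hypothesis `hcong` of helper1's comparison theorem
`s31c_trace_mul_eq` (Lib/S31/Compare.lean) in CONCRETE form.

`𝕋 = heckeAlgebra N 2 S` acts faithfully on the lattice `H(ℤ) = s29s_M N` (`s31e_exists_act`, from
`s30e_exists_Theta`), `T_ℓ` acting as `T_ℓ^H`.  The lattice embeds Hecke-equivariantly into the Tate
module `Λ = T_p J₀(N)` (`ι = s30i_iota`), and is saturated there (`κ_∞ ∘ ι = cast`, `s31e_sat`).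
Hence an integer polynomial `X` in the Hecke operators of `Λ` which is divisible by `p ^ (n + c)`
comes from an element `x ∈ 𝕋` whose action on `H(ℤ)` is divisible by `p ^ (n + c)`, so
`x ∈ p ^ n 𝕋` (helper1's congruence lemma `s31c_cong_map`), so `π x ∈ 𝔪_T ^ n`.

* `s31e_exists_act` : the faithful action `𝕋 →+* End_ℤ H(ℤ)`;
* `s31e_Rel`, `s31e_Rel.add/.sub/.mul/.lucas`, `s31e_Rel_natCast` : the intertwining relation;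
* `s31e_exists_div`, `s31e_sat` : saturation of the lattice;
* `s31e_hcong_abstract` : `hcong` for any `ℤ_[p]`-module `Λ` with `ι`, `κ`;
* `s31e_tau N S`, `s31e_TL N p`, `s31e_TL_frob`, **`s31e_hcong`** : `hcong` for the Tate module.
-/
import Mathlib
import Fermat.Agent.Lib.S30.EigLattice
import Fermat.Agent.Lib.S30.TateKinf
import Fermat.Agent.Lib.S30.TateHecke
import Fermat.Agent.Lib.S31.Lucas
import Fermat.Agent.Lib.S31.Cong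
import Fermat.Agent.Lib.S31.Compare

set_option autoImplicit false
set_option linter.unusedSectionVars false

noncomputable section

namespace Fermat.Agent.Lib.S31

open Fermat.Agent.Lib.S29 Fermat.Agent.Lib.S30
open CongruenceSubgroup AlgebraicCurve ModularCurve
open scoped MatrixGroups

/-! ### The faithful action of the Hecke algebra on the lattice -/

section Act

variable (N : ℕ) [NeZero N] (S : Set ℕ)

/-- The Hecke algebra acts faithfully on the lattice `H(ℤ)`, `T_ℓ` acting as `T_ℓ^H`. -/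
theorem s31e_exists_act :
    ∃ act : ↥(CuspForm.heckeAlgebra N 2 S) →+* Module.End ℤ ↥(s29s_M N),
      Function.Injective act ∧
      ∀ (ℓ : ℕ) (hℓ : ℓ.Prime) (hℓN : ¬ ℓ ∣ N) (hℓS : ℓ ∉ S),
        act (CuspForm.heckeAlgebra.T hℓ hℓN hℓS) =
          (haveI : Fact ℓ.Prime := ⟨hℓ⟩; s29h_heckeHpar N ℓ ℤ ℤ) := by
  classical
  let b := Module.finBasis ℤ ↥(s29s_M N)
  obtain ⟨Θ, hΘinj, hΘ⟩ := s30e_exists_Theta b S
  refine ⟨((Matrix.toLinAlgEquiv b : Matrix _ _ ℤ ≃ₐ[ℤ] Module.End ℤ ↥(s29s_M N)) :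
      Matrix _ _ ℤ →+* Module.End ℤ ↥(s29s_M N)).comp Θ, ?_, ?_⟩
  · intro x y hxy
    apply hΘinj
    exact (Matrix.toLinAlgEquiv b).injective hxy
  · intro ℓ hℓ hℓN hℓS
    have : Fact ℓ.Prime := ⟨hℓ⟩
    have hT : Θ (CuspForm.heckeAlgebra.T hℓ hℓN hℓS) = s29s_heckeMat b ℓ := by
      apply Matrix.map_injective (Int.cast_injective (α := ℂ))
      show (Θ _).map (Int.cast : ℤ → ℂ) = (s29s_heckeMat b ℓ).map (Int.cast : ℤ → ℂ)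
      rw [hΘ, CuspForm.heckeAlgebra.coe_T, s30e_rhoC_heckeT]
    show Matrix.toLinAlgEquiv b (Θ (CuspForm.heckeAlgebra.T hℓ hℓN hℓS)) = _
    rw [hT, s29s_heckeMat]
    exact Matrix.toLin_toMatrix b b _

end Act

/-! ### Saturation of the lattice -/

section Sat

variable {N : ℕ} [NeZero N]

/-- A parabolic integral hom all of whose values are divisible by `d ≠ 0` is `d` times a parabolic
integral hom. -/
theorem s31e_exists_div (d : ℤ) (hd : d ≠ 0) (φ : ↥(s29s_M N))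
    (h : ∀ γ : Additive (Gamma0 N), d ∣ (φ : Additive (Gamma0 N) →+ ℤ) γ) :
    ∃ ψ : ↥(s29s_M N), φ = d • ψ := by
  let ψ' : Additive (Gamma0 N) →+ ℤ :=
    { toFun := fun γ => (φ : Additive (Gamma0 N) →+ ℤ) γ / d
      map_zero' := by simp
      map_add' := fun γ δ => by
        rw [map_add, Int.add_ediv_of_dvd_left (h γ)] }
  have hψ'M : ψ' ∈ s29s_M N := by
    refine ⟨fun γ hγ => ?_, fun γ hγ => ?_⟩
    · show (φ : Additive (Gamma0 N) →+ ℤ) (Additive.ofMul γ) / d = 0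
      rw [φ.2.1 γ hγ, Int.zero_ediv]
    · show (φ : Additive (Gamma0 N) →+ ℤ) (Additive.ofMul γ) / d = 0
      rw [φ.2.2 γ hγ, Int.zero_ediv]
  refine ⟨⟨ψ', hψ'M⟩, ?_⟩
  apply Subtype.ext
  refine AddMonoidHom.ext fun γ => ?_
  rw [Submodule.coe_smul, AddMonoidHom.smul_apply, smul_eq_mul]
  exact (Int.mul_ediv_cancel' (h γ)).symm

variable (p : ℕ) [Fact p.Prime] {Λ : Type*} [AddCommGroup Λ] [Module ℤ_[p] Λ]

/-- **Saturation**: if `ι φ` is divisible by `p ^ m` in `Λ`, then `φ` is divisible by `p ^ m` in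
the lattice. -/
theorem s31e_sat (ι : ↥(s29s_M N) →ₗ[ℤ] Λ)
    (κ : Λ →ₗ[ℤ_[p]] (Additive (Gamma0 N) →+ ℤ_[p]))
    (hκ : ∀ φ : ↥(s29s_M N), κ (ι φ) = s29s_cast ℤ_[p] (φ : Additive (Gamma0 N) →+ ℤ))
    (m : ℕ) (φ : ↥(s29s_M N)) (w : Λ) (h : ι φ = (p : ℤ_[p]) ^ m • w) :
    ∃ ψ : ↥(s29s_M N), φ = ((p : ℤ) ^ m) • ψ := by
  refine s31e_exists_div _ (pow_ne_zero _ (by exact_mod_cast (Fact.out : p.Prime).ne_zero)) φ ?_
  intro γ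
  rw [← PadicInt.pow_p_dvd_int_iff]
  refine ⟨κ w γ, ?_⟩
  have h1 := congrArg (fun f : Additive (Gamma0 N) →+ ℤ_[p] => f γ) (congrArg κ h)
  simp only [hκ, map_smul, AddMonoidHom.smul_apply, s29s_cast_apply, smul_eq_mul] at h1
  exact h1

end Sat

/-! ### The intertwining relation -/

section Rel

variable {N : ℕ} [NeZero N] {S : Set ℕ} {p : ℕ} [Fact p.Prime]
  {Λ : Type*} [AddCommGroup Λ] [Module ℤ_[p] Λ]
  (act : ↥(CuspForm.heckeAlgebra N 2 S) →+* Module.End ℤ ↥(s29s_M N))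
  (ι : ↥(s29s_M N) →ₗ[ℤ] Λ)

/-- `x ∈ 𝕋` (acting on the lattice) and `X ∈ End(Λ)` are intertwined by `ι`. -/
def s31e_Rel (x : ↥(CuspForm.heckeAlgebra N 2 S)) (X : Module.End ℤ_[p] Λ) : Prop :=
  ∀ φ : ↥(s29s_M N), X (ι φ) = ι (act x φ)

variable {act ι}

theorem s31e_Rel.add {x y : ↥(CuspForm.heckeAlgebra N 2 S)} {X Y : Module.End ℤ_[p] Λ}
    (hx : s31e_Rel act ι x X) (hy : s31e_Rel act ι y Y) : s31e_Rel act ι (x + y) (X + Y) := by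
  intro φ
  rw [LinearMap.add_apply, hx φ, hy φ, map_add, LinearMap.add_apply, map_add]

theorem s31e_Rel.sub {x y : ↥(CuspForm.heckeAlgebra N 2 S)} {X Y : Module.End ℤ_[p] Λ}
    (hx : s31e_Rel act ι x X) (hy : s31e_Rel act ι y Y) : s31e_Rel act ι (x - y) (X - Y) := by
  intro φ
  rw [LinearMap.sub_apply, hx φ, hy φ, map_sub, LinearMap.sub_apply, map_sub]

theorem s31e_Rel.mul {x y : ↥(CuspForm.heckeAlgebra N 2 S)} {X Y : Module.End ℤ_[p] Λ}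
    (hx : s31e_Rel act ι x X) (hy : s31e_Rel act ι y Y) : s31e_Rel act ι (x * y) (X * Y) := by
  intro φ
  rw [Module.End.mul_apply, hy φ, hx _, map_mul, Module.End.mul_apply]

theorem s31e_Rel_natCast (n : ℕ) :
    s31e_Rel act ι ((n : ℕ) : ↥(CuspForm.heckeAlgebra N 2 S))
      ((n : ℕ) : Module.End ℤ_[p] Λ) := by
  intro φ
  rw [map_natCast, Module.End.natCast_apply, Module.End.natCast_apply, map_nsmul]

theorem s31e_Rel.lucas {s d : ↥(CuspForm.heckeAlgebra N 2 S)} {s' d' : Module.End ℤ_[p] Λ}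
    (hs : s31e_Rel act ι s s') (hd : s31e_Rel act ι d d') (j : ℕ) :
    s31e_Rel act ι (s31c_lucas s d j) (s31c_lucas s' d' j) := by
  induction j using s31c_two_step with
  | h0 =>
    rw [s31c_lucas_zero, s31c_lucas_zero]
    have h := s31e_Rel_natCast (p := p) (Λ := Λ) (act := act) (ι := ι) 2
    rwa [Nat.cast_ofNat, Nat.cast_ofNat] at h
  | h1 => rwa [s31c_lucas_one, s31c_lucas_one]
  | h j ih0 ih1 =>
    rw [s31c_lucas_succ_succ, s31c_lucas_succ_succ]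
    exact (hs.mul ih1).sub (hd.mul ih0)

/-- An element of `𝕋` intertwined with an endomorphism of `Λ` divisible by `p ^ m` acts on the
(saturated) lattice by an endomorphism divisible by `p ^ m`. -/
theorem s31e_act_dvd {x : ↥(CuspForm.heckeAlgebra N 2 S)} {X : Module.End ℤ_[p] Λ}
    (hx : s31e_Rel act ι x X) (m : ℕ)
    (hsat : ∀ (φ : ↥(s29s_M N)) (w : Λ), ι φ = (p : ℤ_[p]) ^ m • w →
      ∃ ψ : ↥(s29s_M N), φ = ((p : ℤ) ^ m) • ψ)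
    (hX : s31c_Div m X) :
    ∃ y : Module.End ℤ ↥(s29s_M N), act x = ((p : ℤ) ^ m) • y := by
  classical
  let b := Module.finBasis ℤ ↥(s29s_M N)
  have h1 : ∀ i, ∃ ψ : ↥(s29s_M N), act x (b i) = ((p : ℤ) ^ m) • ψ := by
    intro i
    obtain ⟨w, hw⟩ := hX (ι (b i))
    rw [hx (b i)] at hw
    exact hsat _ w hw
  choose ψ hψ using h1
  refine ⟨b.constr ℤ ψ, b.ext fun i => ?_⟩
  rw [hψ i, LinearMap.smul_apply, Module.Basis.constr_basis]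

end Rel

/-! ### `hcong`, abstract form -/

section Abstract

variable {N : ℕ} [NeZero N] {S : Set ℕ} (p : ℕ) [Fact p.Prime]
  {Λ : Type*} [AddCommGroup Λ] [Module ℤ_[p] Λ]

/-- **`hcong`** for a `ℤ_[p]`-module `Λ` with a Hecke-equivariant map `ι : H(ℤ) → Λ` and a ruler
`κ` with `κ (ι φ) = (γ ↦ (φ γ : ℤ_[p]))`. -/
theorem s31e_hcong_abstract (TΛ : ℕ → Module.End ℤ_[p] Λ) (ι : ↥(s29s_M N) →ₗ[ℤ] Λ)
    (hι : ∀ (ℓ : ℕ) (hℓ : ℓ.Prime), ¬ ℓ ∣ N → ∀ φ : ↥(s29s_M N),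
      ι (haveI : Fact ℓ.Prime := ⟨hℓ⟩; s29h_heckeHpar N ℓ ℤ ℤ φ) = TΛ ℓ (ι φ))
    (κ : Λ →ₗ[ℤ_[p]] (Additive (Gamma0 N) →+ ℤ_[p]))
    (hκ : ∀ φ : ↥(s29s_M N), κ (ι φ) = s29s_cast ℤ_[p] (φ : Additive (Gamma0 N) →+ ℤ))
    (τ : ℕ → ↥(CuspForm.heckeAlgebra N 2 S))
    (hτ : ∀ (ℓ : ℕ) (hℓ : ℓ.Prime) (hℓN : ¬ ℓ ∣ N) (hℓS : ℓ ∉ S),
      τ ℓ = CuspForm.heckeAlgebra.T hℓ hℓN hℓS) :
    ∃ c : ℕ, ∀ {T : Type} [CommRing T] (π : ↥(CuspForm.heckeAlgebra N 2 S) →+* T) (I : Ideal T),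
      (p : T) ∈ I → ∀ n ℓ₁ ℓ₂ j₁ j₂ : ℕ, ℓ₁.Prime → ¬ ℓ₁ ∣ N → ℓ₁ ∉ S →
        ℓ₂.Prime → ¬ ℓ₂ ∣ N → ℓ₂ ∉ S →
        s31c_Div (n + c) (s31c_lucas (TΛ ℓ₁) ((ℓ₁ : ℕ) : Module.End ℤ_[p] Λ) j₁ -
          s31c_lucas (TΛ ℓ₂) ((ℓ₂ : ℕ) : Module.End ℤ_[p] Λ) j₂) →
        π (s31c_lucas (τ ℓ₁) ((ℓ₁ : ℕ) : ↥(CuspForm.heckeAlgebra N 2 S)) j₁ -
          s31c_lucas (τ ℓ₂) ((ℓ₂ : ℕ) : ↥(CuspForm.heckeAlgebra N 2 S)) j₂) ∈ I ^ n := by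
  obtain ⟨act, hact_inj, hact_T⟩ := s31e_exists_act N S
  have : IsNoetherian ℤ (Module.End ℤ ↥(s29s_M N)) := isNoetherian_of_isNoetherianRing_of_finite _ _
  obtain ⟨c, hc⟩ := s31c_cong_map (act : ↥(CuspForm.heckeAlgebra N 2 S) →+
    Module.End ℤ ↥(s29s_M N)) hact_inj p
  refine ⟨c, fun {T} _ π I hpI n ℓ₁ ℓ₂ j₁ j₂ hℓ₁ hℓ₁N hℓ₁S hℓ₂ hℓ₂N hℓ₂S hdiv => ?_⟩
  have hrel : ∀ (ℓ : ℕ) (hℓ : ℓ.Prime), ¬ ℓ ∣ N → ℓ ∉ S → s31e_Rel act ι (τ ℓ) (TΛ ℓ) := by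
    intro ℓ hℓ hℓN hℓS φ
    rw [hτ ℓ hℓ hℓN hℓS, hact_T ℓ hℓ hℓN hℓS, hι ℓ hℓ hℓN φ]
  have hR := ((hrel ℓ₁ hℓ₁ hℓ₁N hℓ₁S).lucas (s31e_Rel_natCast ℓ₁) j₁).sub
    ((hrel ℓ₂ hℓ₂ hℓ₂N hℓ₂S).lucas (s31e_Rel_natCast ℓ₂) j₂)
  obtain ⟨y, hy⟩ := s31e_act_dvd hR (n + c) (fun φ w h => s31e_sat p ι κ hκ (n + c) φ w h) hdiv
  exact hc π I hpI n _ y hy

end Abstract

/-! ### `hcong` for the Tate module of `J₀(N)` -/

section Tate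

variable (N : ℕ) [NeZero N] (p : ℕ) [Fact p.Prime]

/-- The Hecke operators on the Tate module, indexed by `ℕ` (zero at non-primes). -/
def s31e_TL (ℓ : ℕ) : Module.End ℤ_[p] (s30a_TJ N p) :=
  if h : ℓ.Prime then s30a_Tz N p ⟨ℓ, h⟩ else 0

theorem s31e_TL_eq {ℓ : ℕ} (hℓ : ℓ.Prime) : s31e_TL N p ℓ = s30a_Tz N p ⟨ℓ, hℓ⟩ := dif_pos hℓ

open Classical in
/-- The Hecke operators in the Hecke algebra, indexed by `ℕ` (zero at the bad indices). -/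
def s31e_tau (S : Set ℕ) (ℓ : ℕ) : ↥(CuspForm.heckeAlgebra N 2 S) :=
  if h : ℓ.Prime ∧ ¬ ℓ ∣ N ∧ ℓ ∉ S then CuspForm.heckeAlgebra.T h.1 h.2.1 h.2.2 else 0

theorem s31e_tau_eq (S : Set ℕ) {ℓ : ℕ} (hℓ : ℓ.Prime) (hℓN : ¬ ℓ ∣ N) (hℓS : ℓ ∉ S) :
    s31e_tau N S ℓ = CuspForm.heckeAlgebra.T hℓ hℓN hℓS := dif_pos ⟨hℓ, hℓN, hℓS⟩

/-- Eichler–Shimura on the Tate module in the form used by the comparison theorem. -/
theorem s31e_TL_frob {ℓ : ℕ} (hℓ : ℓ.Prime) (hℓNp : ¬ ℓ ∣ N * p)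
    (A : ValuationSubring (AlgebraicClosure ℚ)) (hA : A.LiesOverPrime ℓ)
    (σ : s29k_G) (hσ : A.IsFrobeniusAt σ ℓ) :
    s31e_TL N p ℓ = s30a_rho N p σ + ((ℓ : ℤ_[p])) • s30a_rho N p σ⁻¹ := by
  rw [s31e_TL_eq N p hℓ]
  exact s30a_eq_of_frobQuad (s30a_rho N p) _ σ _
    (s30a_Tz_frobQuad N p ⟨ℓ, hℓ⟩ hℓNp A hA σ hσ)

/-- **`hcong`** for the Tate module of `J₀(N)`: literally the hypothesis of `s31c_trace_mul_eq`
with `𝕋 := heckeAlgebra N 2 S`, `Λ := s30a_TJ N p`, `S₀ := S`, `τ := s31e_tau N S`,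
`TΛ := s31e_TL N p`. -/
theorem s31e_hcong (S : Finset ℕ) (hNS : ∀ q : ℕ, q.Prime → q ∣ N → q ∈ S)
    {T : Type} [CommRing T] [IsLocalRing T]
    (π : ↥(CuspForm.heckeAlgebra N 2 (↑S : Set ℕ)) →+* T)
    (hpT : (p : T) ∈ IsLocalRing.maximalIdeal T) :
    ∃ c : ℕ, ∀ n ℓ₁ ℓ₂ j₁ j₂ : ℕ, ℓ₁.Prime → ℓ₁ ∉ S → ℓ₂.Prime → ℓ₂ ∉ S →
      s31c_Div (n + c) (s31c_lucas (s31e_TL N p ℓ₁)
          ((ℓ₁ : ℕ) : Module.End ℤ_[p] (s30a_TJ N p)) j₁ -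
        s31c_lucas (s31e_TL N p ℓ₂) ((ℓ₂ : ℕ) : Module.End ℤ_[p] (s30a_TJ N p)) j₂) →
      π (s31c_lucas (s31e_tau N (↑S : Set ℕ) ℓ₁)
          ((ℓ₁ : ℕ) : ↥(CuspForm.heckeAlgebra N 2 (↑S : Set ℕ))) j₁ -
        s31c_lucas (s31e_tau N (↑S : Set ℕ) ℓ₂)
          ((ℓ₂ : ℕ) : ↥(CuspForm.heckeAlgebra N 2 (↑S : Set ℕ))) j₂) ∈
        IsLocalRing.maximalIdeal T ^ n := by
  obtain ⟨c, hc⟩ := s31e_hcong_abstract (N := N) (S := (↑S : Set ℕ)) p (s31e_TL N p)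
    (s30i_iota N p)
    (fun ℓ hℓ hℓN φ => by
      rw [s31e_TL_eq N p hℓ, s30a_Tz_of_not_dvd N p (ℓ := ⟨ℓ, hℓ⟩) hℓN]
      have : Fact ℓ.Prime := ⟨hℓ⟩
      exact s30i_iota_hecke N p ℓ hℓN φ)
    (s30u_kinf N p) (s30u_kinf_iota N p) (s31e_tau N (↑S : Set ℕ))
    (fun ℓ hℓ hℓN hℓS => s31e_tau_eq N _ hℓ hℓN hℓS)
  refine ⟨c, fun n ℓ₁ ℓ₂ j₁ j₂ hℓ₁ hℓ₁S hℓ₂ hℓ₂S hdiv => ?_⟩
  have h1 : ¬ ℓ₁ ∣ N := fun h => hℓ₁S (hNS ℓ₁ hℓ₁ h)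
  have h2 : ¬ ℓ₂ ∣ N := fun h => hℓ₂S (hNS ℓ₂ hℓ₂ h)
  exact hc π _ hpT n ℓ₁ ℓ₂ j₁ j₂ hℓ₁ h1 (by simpa using hℓ₁S) hℓ₂ h2 (by simpa using hℓ₂S) hdiv

end Tate

end Fermat.Agent.Lib.S31
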