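/-
S31 (Plan M), wiring piece [W6] (helper2): the two side conditions on the coefficient ring `T`
in the context of the S31 template.

* `s31g_p_mem` : `p ∈ 𝔪_𝒪` and `𝒪 → T` local ⇒ `p ∈ 𝔪_T`;
* `s31g_hausdorff` : a Noetherian local ring is separated for its maximal ideal.
-/
import Mathlib

set_option autoImplicit false

namespace Fermat.Agent.Lib.S31

theorem s31g_p_mem {𝒪 T : Type} [CommRing 𝒪] [IsLocalRing 𝒪] [CommRing T] [IsLocalRing T]
    [Algebra 𝒪 T] [IsLocalHom (algebraMap 𝒪 T)] (p : ℕ)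
    (h : (p : 𝒪) ∈ IsLocalRing.maximalIdeal 𝒪) : (p : T) ∈ IsLocalRing.maximalIdeal T := by
  rw [IsLocalRing.mem_maximalIdeal, mem_nonunits_iff] at h ⊢
  intro hu
  apply h
  have h1 : algebraMap 𝒪 T (p : 𝒪) = (p : T) := map_natCast _ p
  rw [← h1] at hu
  exact IsLocalHom.map_nonunit _ hu

theorem s31g_hausdorff {T : Type} [CommRing T] [IsLocalRing T] [IsNoetherianRing T] (x : T)
    (h : ∀ n : ℕ, x ∈ IsLocalRing.maximalIdeal T ^ n) : x = 0 := by
  have h1 : x ∈ ⨅ n : ℕ, IsLocalRing.maximalIdeal T ^ n := by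
    rw [Ideal.mem_iInf]
    exact h
  rw [Ideal.iInf_pow_eq_bot_of_isLocalRing _ (IsLocalRing.maximalIdeal.isMaximal T).ne_top] at h1
  exact h1

end Fermat.Agent.Lib.S31
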