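/-
S31 (after Plan L), package [S31-ALG] (helper6): **a residually absolutely irreducible
representation is trivial at every element which does not change the trace function**.

For a local ring `T`, `ρ : GaloisRepAdic T` with absolutely irreducible residual representation and
`τ` with `tr ρ(τ g) = tr ρ(g)` for all `g`, we get `ρ(τ) = 1`.

Route: Burnside (`s29f_density`) over the algebraic closure of the residue field ⇒ the trace form
detects `0` on the residual representation ⇒ the residual image spans `End` ⇒ (Nakayama) the image
of `ρ` spans `End_T(V)` ⇒ `x := ρ τ - 1` pairs to zero with everything under the trace form ⇒ `x = 0`.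
-/
import Mathlib
import Fermat.Prelude.Def_GaloisRep_Adic
import Fermat.Agent.Lib.S29.FGTwo

set_option autoImplicit false
set_option linter.unusedSectionVars false
set_option linter.style.haveILetI false

namespace Fermat.Agent.Lib.S31

open Fermat.Agent.Lib.S29
open scoped TensorProduct

noncomputable section

/-! ### The trace form on `End` of a finite free module is non-degenerate -/

theorem s31a_eq_zero_of_trace {R M : Type*} [CommRing R] [AddCommGroup M] [Module R M]
    [Module.Free R M] [Module.Finite R M] (y : Module.End R M)
    (h : ∀ a : Module.End R M, LinearMap.trace R M (y * a) = 0) : y = 0 := by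
  classical
  let b := Module.Free.chooseBasis R M
  let e : Module.End R M ≃ₐ[R] Matrix _ _ R := LinearMap.toMatrixAlgEquiv b
  apply e.injective
  rw [map_zero]
  refine Matrix.ext_iff_trace_mul_left.mpr fun x => ?_
  rw [Matrix.mul_zero, Matrix.trace_zero]
  obtain ⟨a, rfl⟩ := e.surjective x
  rw [← map_mul]
  have h1 : (e (a * y)).trace = LinearMap.trace R M (a * y) := by
    rw [LinearMap.trace_eq_matrix_trace R b]
    rfl
  rw [h1, LinearMap.trace_mul_comm]
  exact h a

/-! ### Burnside -/

section Burnside

variable {K : Type*} [Field K] [IsAlgClosed K] {G : Type*} [Group G]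
  {W : Type*} [AddCommGroup W] [Module K W] [FiniteDimensional K W] [Nontrivial W]

/-- **Burnside's theorem**: the image of an irreducible representation on a finite-dimensional
space over an algebraically closed field spans the endomorphism ring. -/
theorem s31a_span_eq_top (r : G →* Module.End K W)
    (hirr : ∀ U : Submodule K W, (∀ g : G, ∀ x ∈ U, r g x ∈ U) → U = ⊥ ∨ U = ⊤) :
    Submodule.span K (Set.range r) = ⊤ := by
  classical
  -- the subalgebra generated by the image
  let B : Subalgebra K (Module.End K W) := Algebra.adjoin K (Set.range r)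
  have hB : (Subalgebra.toSubmodule B) = Submodule.span K (Set.range r) := by
    have h1 : (Submonoid.closure (Set.range r) : Set (Module.End K W)) = Set.range r := by
      have : Set.range r = ((MonoidHom.mrange r : Submonoid (Module.End K W)) :
          Set (Module.End K W)) := (MonoidHom.coe_mrange r).symm
      rw [this, Submonoid.closure_eq]
    rw [Algebra.adjoin_eq_span, h1]
  have hrB : ∀ g, r g ∈ B := fun g => Algebra.subset_adjoin ⟨g, rfl⟩
  -- `W` is a simple `B`-module
  haveI : IsSimpleModule B W := by
    rw [isSimpleModule_iff]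
    refine { exists_pair_ne := ⟨⊥, ⊤, bot_ne_top⟩, eq_bot_or_eq_top := fun U => ?_ }
    have h1 := hirr (U.restrictScalars K) (fun g x hx => by
      have : (⟨r g, hrB g⟩ : B) • x ∈ U := U.smul_mem _ hx
      exact this)
    rcases h1 with h1 | h1
    · left
      exact (Submodule.restrictScalars_eq_bot_iff K B W).mp h1
    · right
      exact (Submodule.restrictScalars_eq_top_iff K B W).mp h1
  -- density on a basis
  rw [← hB, eq_top_iff]
  intro a _
  let bas := Module.finBasis K W
  obtain ⟨b, hb⟩ := s29f_density (R := B) a (Finset.univ.image bas)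
  have : a = (b : Module.End K W) := by
    refine bas.ext fun i => ?_
    exact hb (bas i) (Finset.mem_image_of_mem _ (Finset.mem_univ i))
  rw [this]
  exact b.2

/-- The trace form detects zero on the image of an irreducible representation. -/
theorem s31a_eq_zero_of_trace_irr (r : G →* Module.End K W)
    (hirr : ∀ U : Submodule K W, (∀ g : G, ∀ x ∈ U, r g x ∈ U) → U = ⊥ ∨ U = ⊤)
    (y : Module.End K W) (h : ∀ g, LinearMap.trace K W (y * r g) = 0) : y = 0 := by
  refine s31a_eq_zero_of_trace y fun a => ?_
  have ha : a ∈ Submodule.span K (Set.range r) := by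
    rw [s31a_span_eq_top r hirr]; trivial
  induction ha using Submodule.span_induction with
  | mem x hx =>
    obtain ⟨g, rfl⟩ := hx
    exact h g
  | zero => rw [mul_zero, map_zero]
  | add x z _ _ hx hz => rw [mul_add, map_add, hx, hz, add_zero]
  | smul c x _ hx => rw [mul_smul_comm, map_smul, hx, smul_zero]

end Burnside

/-! ### Descent to a non-closed field -/

section Descent

variable {k : Type*} [Field k] (K : Type*) [Field K] [Algebra k K] [IsAlgClosed K]
  {G : Type*} [Group G] {V : Type*} [AddCommGroup V] [Module k V] [FiniteDimensional k V]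
  [Nontrivial V]

/-- The trace form detects zero on the image of an ABSOLUTELY irreducible representation. -/
theorem s31a_eq_zero_of_trace_absIrr (r : G →* Module.End k V)
    (hirr : ∀ U : Submodule K (K ⊗[k] V),
      (∀ g : G, ∀ x ∈ U, (r g).baseChange K x ∈ U) → U = ⊥ ∨ U = ⊤)
    (y : Module.End k V) (h : ∀ g, LinearMap.trace k V (y * r g) = 0) : y = 0 := by
  let rK : G →* Module.End K (K ⊗[k] V) :=
    { toFun := fun g => (r g).baseChange K
      map_one' := by rw [map_one, LinearMap.baseChange_one]
      map_mul' := fun g g' => by rw [map_mul, LinearMap.baseChange_mul] }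
  haveI : Nontrivial (K ⊗[k] V) := by
    apply Module.nontrivial_of_finrank_pos (R := K)
    rw [Module.finrank_baseChange]
    exact Module.finrank_pos
  have h1 : ∀ g, LinearMap.trace K (K ⊗[k] V) (y.baseChange K * rK g) = 0 := by
    intro g
    show LinearMap.trace K (K ⊗[k] V) (y.baseChange K * (r g).baseChange K) = 0
    rw [← LinearMap.baseChange_mul, LinearMap.trace_baseChange, h g, map_zero]
  have h2 : y.baseChange K = 0 := s31a_eq_zero_of_trace_irr rK hirr (y.baseChange K) h1
  refine s31a_eq_zero_of_trace y fun a => ?_
  have h3 : algebraMap k K (LinearMap.trace k V (y * a)) = 0 := by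
    rw [← LinearMap.trace_baseChange, LinearMap.baseChange_mul, h2, zero_mul, map_zero]
  exact (map_eq_zero_iff _ (algebraMap k K).injective).mp h3

end Descent

/-! ### Spanning -/

section Span

variable {k : Type*} [Field k] {V : Type*} [AddCommGroup V] [Module k V] [FiniteDimensional k V]

/-- A family of endomorphisms on which the trace form detects zero spans `End`. -/
theorem s31a_span_eq_top_of_trace {ι : Type*} (r : ι → Module.End k V)
    (h : ∀ y : Module.End k V, (∀ i, LinearMap.trace k V (y * r i) = 0) → y = 0) :
    Submodule.span k (Set.range r) = ⊤ := by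
  by_contra hne
  obtain ⟨f, hf0, hf⟩ := Submodule.exists_le_ker_of_lt_top _ (lt_top_iff_ne_top.mpr hne)
  -- the trace form as a map to the dual
  let Φ : Module.End k V →ₗ[k] Module.Dual k (Module.End k V) :=
    { toFun := fun y => (LinearMap.trace k V).comp (LinearMap.mulLeft k y)
      map_add' := fun y z => by
        ext a
        simp only [LinearMap.comp_apply, LinearMap.mulLeft_apply, LinearMap.add_apply, add_mul,
          map_add]
      map_smul' := fun c y => by
        ext a
        simp only [LinearMap.comp_apply, LinearMap.mulLeft_apply, LinearMap.smul_apply,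
          smul_mul_assoc, map_smul, RingHom.id_apply] }
  have hΦinj : Function.Injective Φ := by
    rw [← LinearMap.ker_eq_bot, LinearMap.ker_eq_bot']
    intro y hy
    refine s31a_eq_zero_of_trace y fun a => ?_
    have := LinearMap.congr_fun hy a
    exact this
  have hΦsurj : Function.Surjective Φ :=
    (LinearMap.injective_iff_surjective_of_finrank_eq_finrank
      (Subspace.dual_finrank_eq (K := k) (V := Module.End k V)).symm).mp hΦinj
  obtain ⟨y, hy⟩ := hΦsurj f
  have hy0 : y = 0 := by
    refine h y fun i => ?_
    have h1 : f (r i) = 0 := hf (Submodule.subset_span ⟨i, rfl⟩)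
    rw [← hy] at h1
    exact h1
  apply hf0
  rw [← hy, hy0, map_zero]

end Span

/-! ### Nakayama -/

section Nakayama

variable {T : Type*} [CommRing T] [IsLocalRing T] {V : Type*} [AddCommGroup V] [Module T V]
  [Module.Free T V] [Module.Finite T V]

local notation "kT" => IsLocalRing.ResidueField T

/-- An endomorphism of a finite free module which vanishes residually lies in `𝔪 • End`. -/
theorem s31a_mem_smul_top_of_baseChange_eq_zero (w : Module.End T V)
    (hw : w.baseChange kT = 0) :
    w ∈ (IsLocalRing.maximalIdeal T) • (⊤ : Submodule T (Module.End T V)) := by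
  classical
  let b := Module.Free.chooseBasis T V
  have h1 := LinearMap.toMatrix_baseChange kT w b b
  rw [hw, map_zero] at h1
  have hentry : ∀ i j, LinearMap.toMatrix b b w i j ∈ IsLocalRing.maximalIdeal T := by
    intro i j
    have h2 := congrFun (congrFun h1 i) j
    rw [Matrix.zero_apply, Matrix.map_apply, IsLocalRing.ResidueField.algebraMap_eq] at h2
    exact (IsLocalRing.residue_eq_zero_iff _).mp h2.symm
  have h3 : w = (LinearMap.toMatrix b b).symm (LinearMap.toMatrix b b w) :=
    ((LinearMap.toMatrix b b).symm_apply_apply w).symm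
  rw [h3, Matrix.matrix_eq_sum_single (LinearMap.toMatrix b b w), map_sum]
  refine Submodule.sum_mem _ fun i _ => ?_
  rw [map_sum]
  refine Submodule.sum_mem _ fun j _ => ?_
  have h4 : Matrix.single i j (LinearMap.toMatrix b b w i j) =
      LinearMap.toMatrix b b w i j • Matrix.single i j (1 : T) := by
    rw [Matrix.smul_single, smul_eq_mul, mul_one]
  rw [h4, map_smul]
  exact Submodule.smul_mem_smul (hentry i j) Submodule.mem_top

/-- **Nakayama**: if the residual image spans, the image spans. -/
theorem s31a_span_eq_top_of_residue {ι : Type*} (ρ : ι → Module.End T V)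
    (h : Submodule.span kT (Set.range fun i => (ρ i).baseChange kT) = ⊤) :
    Submodule.span T (Set.range ρ) = ⊤ := by
  rw [eq_top_iff]
  refine Submodule.le_of_le_smul_of_le_jacobson_bot (I := IsLocalRing.maximalIdeal T)
    Module.Finite.fg_top
    (by rw [IsLocalRing.jacobson_eq_maximalIdeal ⊥ bot_ne_top]) ?_
  intro z _
  -- every element of the residual span lifts to the span
  have key : ∀ u ∈ Submodule.span kT (Set.range fun i => (ρ i).baseChange kT),
      ∃ a ∈ Submodule.span T (Set.range ρ), a.baseChange kT = u := by
    intro u hu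
    induction hu using Submodule.span_induction with
    | mem x hx =>
      obtain ⟨i, rfl⟩ := hx
      exact ⟨ρ i, Submodule.subset_span ⟨i, rfl⟩, rfl⟩
    | zero => exact ⟨0, Submodule.zero_mem _, LinearMap.baseChange_zero⟩
    | add x y _ _ hx hy =>
      obtain ⟨a, ha, rfl⟩ := hx
      obtain ⟨a', ha', rfl⟩ := hy
      exact ⟨a + a', Submodule.add_mem _ ha ha', LinearMap.baseChange_add a a'⟩
    | smul c x _ hx =>
      obtain ⟨a, ha, rfl⟩ := hx
      obtain ⟨c', rfl⟩ := IsLocalRing.residue_surjective c
      refine ⟨c' • a, Submodule.smul_mem _ c' ha, ?_⟩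
      rw [LinearMap.baseChange_smul]
      rfl
  obtain ⟨a, ha, haz⟩ := key (z.baseChange kT) (by rw [h]; trivial)
  have h1 : z - a ∈ (IsLocalRing.maximalIdeal T) • (⊤ : Submodule T (Module.End T V)) := by
    apply s31a_mem_smul_top_of_baseChange_eq_zero
    rw [LinearMap.baseChange_sub, haz]
    exact sub_self (z.baseChange kT)
  have h2 : z = a + (z - a) := by abel
  rw [h2]
  exact Submodule.add_mem_sup ha h1

end Nakayama

/-! ### The main lemma -/

section Final

variable {T : Type} [CommRing T] [IsLocalRing T]

local notation "GQ" => (AlgebraicClosure ℚ ≃ₐ[ℚ] AlgebraicClosure ℚ)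

/-- The image of a residually absolutely irreducible `ρ : GaloisRepAdic T` spans `End_T(V)`. -/
theorem s31a_span_rho_eq_top (ρ : GaloisRepAdic T)
    (habs : ρ.residual.IsAbsolutelyIrreducible) :
    Submodule.span T (Set.range ρ.ρ) = ⊤ := by
  haveI : Nontrivial ρ.residual.V := by
    apply Module.nontrivial_of_finrank_pos (R := IsLocalRing.ResidueField T)
    rw [ρ.residual.finrank_eq]
    norm_num
  apply s31a_span_eq_top_of_residue
  apply s31a_span_eq_top_of_trace (V := ρ.residual.V) (fun g : GQ => ρ.residual.ρ g)
  intro y hy
  exact s31a_eq_zero_of_trace_absIrr (AlgebraicClosure (IsLocalRing.ResidueField T))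
    ρ.residual.ρ habs y hy

/-- **[S31-ALG]**: if `ρ` is residually absolutely irreducible and `tr ρ(τ g) = tr ρ(g)` for all
`g`, then `ρ(τ) = 1`. -/
theorem s31a_rho_eq_one (ρ : GaloisRepAdic T) (habs : ρ.residual.IsAbsolutelyIrreducible)
    (τ : GQ) (h : ∀ g : GQ, ρ.trace (τ * g) = ρ.trace g) : ρ.ρ τ = 1 := by
  have hx : ρ.ρ τ - 1 = 0 := by
    refine s31a_eq_zero_of_trace (ρ.ρ τ - 1) fun a => ?_
    have ha : a ∈ Submodule.span T (Set.range ρ.ρ) := by
      rw [s31a_span_rho_eq_top ρ habs]; trivial
    induction ha using Submodule.span_induction with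
    | mem x hx =>
      obtain ⟨g, rfl⟩ := hx
      rw [sub_mul, one_mul, ← map_mul, map_sub]
      exact sub_eq_zero.mpr (h g)
    | zero => rw [mul_zero, map_zero]
    | add x z _ _ hx hz => rw [mul_add, map_add, hx, hz, add_zero]
    | smul c x _ hx => rw [mul_smul_comm, map_smul, hx, smul_zero]
  exact sub_eq_zero.mp hx

end Final

end

end Fermat.Agent.Lib.S31
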